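import Mathlib
import Fermat.Agent.Lib.DVRPoints.NumberField

/-!
# DVR points of a domain which is finite over a Dedekind domain of characteristic zero
(owner: helper62)

`exists_dedekind_points`: let `𝒪` be a Dedekind domain of characteristic zero, `p` a prime number
with `𝒪 ⧸ (p)` finite, and `D` a domain which is a finite `𝒪`-module with `𝒪 → D` injective.
Then there are a Dedekind domain `B`, finite over `𝒪`, an injective `𝒪`-algebra homomorphism
`D → B`, and finitely many ring homomorphisms from `B` to complete discrete valuation rings of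
characteristic zero with finite residue fields of characteristic `p`, which detect divisibility
by powers of `p` in `B`.
-/

set_option autoImplicit false
set_option linter.style.haveILetI false
set_option linter.overlappingInstances false

namespace Fermat.Agent.S32

open IsDedekindDomain HeightOneSpectrum WithZero IsLocalRing Fermat.Agent.DVRPoints
open scoped nonZeroDivisors

section FiniteQuot

variable {𝒪 : Type*} [CommRing 𝒪] {B : Type*} [CommRing B] [Algebra 𝒪 B] [Module.Finite 𝒪 B]

/-- The quotient of a finite algebra by an ideal containing `t` is finite if `𝒪 ⧸ (t)` is. -/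
theorem finite_quotient_of_mem (t : 𝒪) (hfin : Finite (𝒪 ⧸ Ideal.span {t})) (I : Ideal B)
    (ht : algebraMap 𝒪 B t ∈ I) : Finite (B ⧸ I) := by
  classical
  obtain ⟨n, f, hf⟩ := Module.Finite.exists_fin' 𝒪 B
  let g : (Fin n → 𝒪 ⧸ Ideal.span {t}) → B ⧸ I :=
    fun c => Ideal.Quotient.mk I (f fun i => (c i).out)
  refine Finite.of_surjective g fun y => ?_
  obtain ⟨b, rfl⟩ := Ideal.Quotient.mk_surjective y
  obtain ⟨a, rfl⟩ := hf b
  refine ⟨fun i => Ideal.Quotient.mk _ (a i), ?_⟩
  show Ideal.Quotient.mk I (f fun i => (Ideal.Quotient.mk (Ideal.span {t}) (a i)).out) =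
    Ideal.Quotient.mk I (f a)
  rw [Ideal.Quotient.eq, ← map_sub]
  have hdiff : ∀ i, ∃ c : 𝒪,
      (Ideal.Quotient.mk (Ideal.span {t}) (a i)).out - a i = t * c := by
    intro i
    have h1 : (Ideal.Quotient.mk (Ideal.span {t}) (a i)).out - a i ∈ Ideal.span {t} := by
      rw [← Ideal.Quotient.eq]
      exact Quotient.out_eq _
    exact Ideal.mem_span_singleton'.1 h1 |>.imp fun c hc => by rw [← hc, mul_comm]
  choose c hc using hdiff
  have h2 : ((fun i => (Ideal.Quotient.mk (Ideal.span {t}) (a i)).out) - a) = t • c := by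
    funext i
    simp only [Pi.sub_apply, Pi.smul_apply, smul_eq_mul]
    exact hc i
  rw [h2, map_smul, Algebra.smul_def]
  exact I.mul_mem_right _ ht

end FiniteQuot

section Domain

variable (𝒪 : Type) [CommRing 𝒪] [IsDomain 𝒪] [IsDedekindDomain 𝒪] [CharZero 𝒪]
  (D : Type) [CommRing D] [IsDomain D] [Algebra 𝒪 D] [Module.Finite 𝒪 D]

/-- DVR points of the normalisation of a domain finite over a Dedekind domain. -/
theorem exists_dedekind_points (hinj : Function.Injective (algebraMap 𝒪 D))
    (p : ℕ) (hp : p.Prime) (hfin : Finite (𝒪 ⧸ Ideal.span {(p : 𝒪)})) :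
    ∃ (B : Type) (_ : CommRing B) (_ : Algebra 𝒪 B) (_ : Module.Finite 𝒪 B)
      (φ : D →ₐ[𝒪] B) (ι : Type) (_ : Finite ι) (P : ι → DVRPt p B),
      Function.Injective φ ∧
      ∀ k : ℕ, ∃ m : ℕ, ∀ y : B,
        (∀ i, (P i).χ y ∈ IsLocalRing.maximalIdeal (P i).O ^ m) →
          ∃ z : B, y = (p : B) ^ k * z := by
  classical
  set K := FractionRing 𝒪 with hK
  set L := FractionRing D with hL
  haveI : FaithfulSMul 𝒪 D := (faithfulSMul_iff_algebraMap_injective 𝒪 D).2 hinj
  have hinjL : Function.Injective (algebraMap 𝒪 L) := by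
    rw [IsScalarTower.algebraMap_eq 𝒪 D L]
    exact (IsFractionRing.injective D L).comp hinj
  haveI : FaithfulSMul 𝒪 L := (faithfulSMul_iff_algebraMap_injective 𝒪 L).2 hinjL
  letI : Algebra K L := FractionRing.liftAlgebra 𝒪 L
  haveI : IsScalarTower 𝒪 K L := FractionRing.isScalarTower_liftAlgebra 𝒪 L
  haveI : CharZero K := charZero_of_injective_algebraMap (IsFractionRing.injective 𝒪 K)
  haveI : CharZero L := charZero_of_injective_algebraMap hinjL
  haveI : FiniteDimensional K L := Module.Finite.of_isLocalization 𝒪 D 𝒪⁰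
  set B := integralClosure 𝒪 L with hB
  haveI : IsDedekindDomain B := inferInstance
  haveI : IsFractionRing B L := integralClosure.isFractionRing_of_finite_extension K L
  haveI : Module.Finite 𝒪 B := IsIntegralClosure.finite 𝒪 K L B
  haveI : CharZero B := charZero_of_injective_algebraMap (R := 𝒪) (A := B)
    (fun x y hxy => hinjL (by
      have := congrArg (algebraMap B L) hxy
      rwa [← IsScalarTower.algebraMap_apply, ← IsScalarTower.algebraMap_apply] at this))
  let φ : D →ₐ[𝒪] B := IsIntegralClosure.lift 𝒪 B L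
  have hφ : ∀ x, algebraMap B L (φ x) = algebraMap D L x :=
    fun x => IsIntegralClosure.algebraMap_lift 𝒪 B L x
  have hφinj : Function.Injective φ := by
    intro x y hxy
    have h1 := hφ x
    rw [hxy, hφ] at h1
    exact (IsFractionRing.injective D L h1).symm
  have hp0 : (p : B) ≠ 0 := by exact_mod_cast hp.ne_zero
  have hquot : ∀ v : HeightOneSpectrum B, (p : B) ∈ v.asIdeal → Finite (B ⧸ v.asIdeal) := by
    intro v hv
    refine finite_quotient_of_mem (p : 𝒪) hfin v.asIdeal ?_
    rw [map_natCast]
    exact hv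
  have hfib : Finite {v : HeightOneSpectrum B // (p : B) ∈ v.asIdeal} := by
    have hfin' : {v : HeightOneSpectrum B | v.asIdeal ∣ Ideal.span {(p : B)}}.Finite :=
      Ideal.finite_factors (by simpa using hp0)
    have : {v : HeightOneSpectrum B | (p : B) ∈ v.asIdeal}.Finite := by
      refine hfin'.subset fun v hv => ?_
      rw [Set.mem_ofPred_eq, Ideal.dvd_span_singleton]
      exact hv
    exact this.to_subtype
  let P : {v : HeightOneSpectrum B // (p : B) ∈ v.asIdeal} → DVRPt p B := fun a =>
    haveI : Finite (B ⧸ a.1.asIdeal) := hquot a.1 a.2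
    { O := a.1.adicCompletionIntegers L
      instComplete := isAdicComplete_adicCompletionIntegers a.1
      instFinite := finite_residueField a.1
      instCharZero := charZero_adicCompletionIntegers a.1
      hp := natCast_mem_maximalIdeal a.1 p a.2
      χ := algebraMap B (a.1.adicCompletionIntegers L) }
  refine ⟨B, inferInstance, inferInstance, inferInstance, φ, _, hfib, P, hφinj, fun k => ?_⟩
  obtain ⟨m, hm⟩ := exists_pow_separation (p : B) hp0 k
  refine ⟨m, fun y hy => hm y fun v hv => ?_⟩
  have h1 : algebraMap B (v.adicCompletionIntegers L) y ∈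
      IsLocalRing.maximalIdeal (v.adicCompletionIntegers L) ^ m := hy ⟨v, hv⟩
  exact (algebraMap_mem_maximalIdeal_pow_iff (K := L) v y m).1 h1

end Domain

end Fermat.Agent.S32
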