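import Mathlib
import Fermat.Agent.S32.PointsDomain

/-!
# DVR points of a reduced ring which is finite and torsion-free over a Dedekind domain
(owner: helper62)

`dvrSeparation_of_finite`: let `𝒪` be a Dedekind domain of characteristic zero, `p` a prime number
with `𝒪 ⧸ (p)` finite, and `T` a reduced `𝒪`-algebra which is finite and torsion-free as an
`𝒪`-module.  Then `T` is separated, uniformly for the `p`-adic topology, by finitely many ring
homomorphisms to complete discrete valuation rings of characteristic zero with finite residue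
field of characteristic `p` (`Fermat.Agent.DVRPoints.DVRSeparation p T`).

`isLocalHom_of_natCast_mem`: such points are local homomorphisms when `T` is local with `p` in its
maximal ideal.
-/

set_option autoImplicit false
set_option linter.style.haveILetI false
set_option linter.overlappingInstances false

namespace Fermat.Agent.S32

open Fermat.Agent.DVRPoints
open scoped nonZeroDivisors

/-- Artin–Rees for a principal ideal. -/
theorem exists_artinRees {R N M : Type*} [CommRing R] [IsNoetherianRing R]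
    [AddCommGroup N] [Module R N] [AddCommGroup M] [Module R M] [Module.Finite R M]
    (f : N →ₗ[R] M) (hf : Function.Injective f) (t : R) :
    ∃ c : ℕ, ∀ (r : ℕ) (x : N), (∃ y : M, f x = t ^ (r + c) • y) →
      ∃ x' : N, x = t ^ r • x' := by
  obtain ⟨c, hc⟩ := Ideal.exists_pow_inf_eq_pow_smul (Ideal.span {t}) (LinearMap.range f)
  refine ⟨c, fun r x ⟨y, hy⟩ => ?_⟩
  have h1 : f x ∈ (Ideal.span {t}) ^ (r + c) • (⊤ : Submodule R M) ⊓ LinearMap.range f := by
    refine ⟨?_, LinearMap.mem_range_self f x⟩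
    rw [hy, Ideal.span_singleton_pow]
    exact Submodule.smul_mem_smul (Ideal.mem_span_singleton_self _) Submodule.mem_top
  rw [hc (r + c) (Nat.le_add_left c r), Nat.add_sub_cancel] at h1
  have h2 : f x ∈ (Ideal.span {t}) ^ r • LinearMap.range f :=
    Submodule.smul_mono le_rfl inf_le_right h1
  rw [Ideal.span_singleton_pow, Submodule.ideal_span_singleton_smul,
    Submodule.mem_smul_pointwise_iff_exists] at h2
  obtain ⟨_, ⟨x', rfl⟩, hx'⟩ := h2
  refine ⟨x', hf ?_⟩
  rw [map_smul]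
  exact hx'.symm

section Main

variable (𝒪 : Type) [CommRing 𝒪] [IsDomain 𝒪] [IsDedekindDomain 𝒪] [CharZero 𝒪]
  (T : Type) [CommRing T] [Algebra 𝒪 T] [Module.Finite 𝒪 T] [IsReduced T]

/-- A reduced ring which is finite and torsion-free over a Dedekind domain of characteristic
zero is separated, uniformly for the `p`-adic topology, by finitely many DVR points. -/
theorem dvrSeparation_of_finite
    (htf : ∀ (a : 𝒪) (x : T), a ≠ 0 → a • x = 0 → x = 0)
    (p : ℕ) (hp : p.Prime) (hfin : Finite (𝒪 ⧸ Ideal.span {(p : 𝒪)})) :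
    DVRSeparation p T := by
  classical
  have : IsNoetherianRing T := Algebra.FiniteType.isNoetherianRing 𝒪 T
  have : Finite (minimalPrimes T) := (minimalPrimes.finite_of_isNoetherianRing T).to_subtype
  have hprime : ∀ 𝔮 : minimalPrimes T, 𝔮.1.IsPrime := fun 𝔮 => Ideal.IsMinimalPrime.isPrime 𝔮.2
  have hinj : ∀ 𝔮 : minimalPrimes T, Function.Injective (algebraMap 𝒪 (T ⧸ 𝔮.1)) := by
    intro 𝔮
    rw [injective_iff_map_eq_zero]
    intro a ha
    by_contra ha0
    have h1 : algebraMap 𝒪 T a ∈ 𝔮.1 := by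
      rw [← Ideal.Quotient.eq_zero_iff_mem]
      exact ha
    have h2 : algebraMap 𝒪 T a ∈ nonZeroDivisors T := by
      rw [mem_nonZeroDivisors_iff_right]
      intro x hx
      refine htf a x ha0 ?_
      rw [Algebra.smul_def, mul_comm]
      exact hx
    exact Set.disjoint_left.1 (Ideal.disjoint_nonZeroDivisors_of_mem_minimalPrimes 𝔮.2) h1 h2
  choose B iB1 iB2 iB3 φ ι iι P hφ hsep using fun 𝔮 : minimalPrimes T =>
    exists_dedekind_points 𝒪 (T ⧸ 𝔮.1) (hinj 𝔮) p hp hfin
  let ψ : ∀ 𝔮 : minimalPrimes T, T →ₐ[𝒪] B 𝔮 := fun 𝔮 =>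
    (φ 𝔮).comp (Ideal.Quotient.mkₐ 𝒪 𝔮.1)
  let Q : (Σ 𝔮 : minimalPrimes T, ι 𝔮) → DVRPt p T := fun a =>
    (P a.1 a.2).comap (ψ a.1 : T →+* B a.1)
  refine DVRSeparation.of_finite Q fun r => ?_
  let f : T →ₗ[𝒪] (∀ 𝔮, B 𝔮) := LinearMap.pi fun 𝔮 => (ψ 𝔮).toLinearMap
  have hf : Function.Injective f := by
    rw [injective_iff_map_eq_zero]
    intro X hX
    have h1 : X ∈ sInf (minimalPrimes T) := by
      rw [Ideal.mem_sInf]
      intro 𝔮 h𝔮
      have h2 : ψ ⟨𝔮, h𝔮⟩ X = 0 := congrFun hX ⟨𝔮, h𝔮⟩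
      have h3 : φ ⟨𝔮, h𝔮⟩ (Ideal.Quotient.mk 𝔮 X) = 0 := h2
      rw [map_eq_zero_iff _ (hφ ⟨𝔮, h𝔮⟩), Ideal.Quotient.eq_zero_iff_mem] at h3
      exact h3
    rw [minimalPrimes, Ideal.sInf_minimalPrimes] at h1
    have h3 : IsNilpotent X := by
      rwa [← mem_nilradical, nilradical]
    exact h3.eq_zero
  obtain ⟨c, hc⟩ := exists_artinRees f hf (p : 𝒪)
  choose m hm using fun 𝔮 => hsep 𝔮 (r + c)
  obtain ⟨m0, hm0⟩ : ∃ m0, ∀ 𝔮, m 𝔮 ≤ m0 := by
    obtain ⟨m0, hm0⟩ := (Set.finite_range m).bddAbove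
    exact ⟨m0, fun 𝔮 => hm0 (Set.mem_range_self 𝔮)⟩
  refine ⟨m0, fun X hX => ?_⟩
  have hz : ∀ 𝔮, ∃ z : B 𝔮, ψ 𝔮 X = (p : B 𝔮) ^ (r + c) * z := by
    intro 𝔮
    apply hm 𝔮
    intro i
    exact Ideal.pow_le_pow_right (hm0 𝔮) (hX ⟨𝔮, i⟩)
  choose z hz using hz
  obtain ⟨Y, hY⟩ := hc r X ⟨z, by
    funext 𝔮
    show ψ 𝔮 X = ((p : 𝒪) ^ (r + c) • z) 𝔮
    rw [Pi.smul_apply, hz 𝔮, Algebra.smul_def, map_pow, map_natCast]⟩
  refine ⟨Y, ?_⟩
  rw [hY, Algebra.smul_def, map_pow, map_natCast]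

end Main

/-- A ring homomorphism from a local ring `T` with `T ⧸ (p)` finite and `p` in the maximal ideal
to a local ring in which `p` is not a unit is a local homomorphism. -/
theorem isLocalHom_of_natCast_mem {T O : Type*} [CommRing T] [IsLocalRing T] [CommRing O]
    [IsLocalRing O] (p : ℕ) (hfin : Finite (T ⧸ Ideal.span {(p : T)}))
    (hpO : (p : O) ∈ IsLocalRing.maximalIdeal O) (ψ : T →+* O) : IsLocalHom ψ := by
  refine ⟨fun a ha => ?_⟩
  by_contra hna
  have ham : a ∈ IsLocalRing.maximalIdeal T := (IsLocalRing.mem_maximalIdeal _).2 hna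
  -- two powers of `a` agree modulo `p`
  obtain ⟨i, j, hij, hpow⟩ : ∃ i j : ℕ, i < j ∧
      Ideal.Quotient.mk (Ideal.span {(p : T)}) (a ^ i) =
        Ideal.Quotient.mk (Ideal.span {(p : T)}) (a ^ j) := by
    have hninj : ¬ Function.Injective
        (fun n : ℕ => Ideal.Quotient.mk (Ideal.span {(p : T)}) (a ^ n)) :=
      not_injective_infinite_finite _
    rw [Function.Injective] at hninj
    push Not at hninj
    obtain ⟨i, j, hij, hne⟩ := hninj
    rcases Nat.lt_or_gt_of_ne hne with h | h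
    · exact ⟨i, j, h, hij⟩
    · exact ⟨j, i, h, hij.symm⟩
  rw [Ideal.Quotient.eq, Ideal.mem_span_singleton] at hpow
  obtain ⟨b, hb⟩ := hpow
  have h1 : a ^ i * (1 - a ^ (j - i)) = (p : T) * b := by
    rw [← hb, mul_sub, mul_one, ← pow_add, Nat.add_sub_cancel' hij.le]
  have hunit : IsUnit (1 - a ^ (j - i)) := by
    have h2 : a ^ (j - i) ∈ IsLocalRing.maximalIdeal T :=
      Ideal.pow_mem_of_mem _ ham _ (Nat.sub_pos_of_lt hij)
    by_contra h3
    have h4 : 1 - a ^ (j - i) ∈ IsLocalRing.maximalIdeal T :=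
      (IsLocalRing.mem_maximalIdeal _).2 h3
    have h5 : (1 : T) ∈ IsLocalRing.maximalIdeal T := by
      have := Ideal.add_mem _ h4 h2
      rwa [sub_add_cancel] at this
    exact (Ideal.ne_top_iff_one _).1 (IsLocalRing.maximalIdeal.isMaximal T).ne_top h5
  obtain ⟨u, hu⟩ := hunit
  have h6 : a ^ i = (p : T) * (b * ↑u⁻¹) := by
    rw [← mul_assoc, ← h1, ← hu, mul_assoc, Units.mul_inv, mul_one]
  have h7 : ψ a ^ i ∈ IsLocalRing.maximalIdeal O := by
    rw [← map_pow, h6, map_mul, map_natCast]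
    exact Ideal.mul_mem_right _ _ hpO
  have h8 : IsUnit (ψ a ^ i) := ha.pow i
  exact (IsLocalRing.mem_maximalIdeal _).1 h7 h8

end Fermat.Agent.S32
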