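import Mathlib

/-!
# The coefficient ring of a Hecke–Galois datum is reduced (abstract form)
(owner: helper62)

`formallyUnramified_of_adjoin`: a commutative algebra over a field which is generated by elements
killed by separable polynomials is formally unramified.

`isReduced_of_adjoin_range`: let `R` be a domain of characteristic zero, `h` a reduced commutative
ring which is a finitely generated `ℤ`-module, and `T` a finite flat `R`-algebra generated over `R`
by the image of a ring homomorphism `h →+* T`.  Then `T` is reduced.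
-/

set_option autoImplicit false

namespace Fermat.Agent.S32

open Polynomial
open scoped TensorProduct

section Unram

variable {K A : Type*} [Field K] [CommRing A] [Algebra K A]

/-- The derivative of a separable polynomial is invertible at every root. -/
lemma isUnit_aeval_derivative {g : K[X]} (hg : g.Separable) {x : A} (hx : aeval x g = 0) :
    IsUnit (aeval x (derivative g)) := by
  obtain ⟨a, b, hab⟩ := hg
  have h1 := congrArg (aeval x) hab
  simp only [map_add, map_mul, hx, mul_zero, zero_add, map_one] at h1
  exact IsUnit.of_mul_eq_one _ (by rw [mul_comm]; exact h1)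

/-- A commutative algebra over a field generated by elements killed by separable polynomials
is formally unramified. -/
theorem formallyUnramified_of_adjoin (s : Set A) (hs : Algebra.adjoin K s = ⊤)
    (hsep : ∀ x ∈ s, ∃ g : K[X], g.Separable ∧ aeval x g = 0) :
    Algebra.FormallyUnramified K A := by
  rw [Algebra.FormallyUnramified.iff_comp_injective]
  intro B _ _ I hI f₁ f₂ e
  apply AlgHom.ext_of_adjoin_eq_top hs
  intro x hx
  obtain ⟨g, hg, hgx⟩ := hsep x hx
  have h1 : f₁ x - f₂ x ∈ I := by
    simpa [Ideal.Quotient.mk_eq_mk_iff_sub_mem] using AlgHom.congr_fun e x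
  have h2 := Polynomial.eval_add_of_sq_eq_zero (g.map (algebraMap K B)) (f₂ x)
    (f₁ x - f₂ x) (show (f₁ x - f₂ x) ^ 2 ∈ ⊥ from hI ▸ Ideal.pow_mem_pow h1 2)
  simp only [add_sub_cancel, eval_map_algebraMap, aeval_algHom_apply, hgx, map_zero,
    derivative_map, zero_add] at h2
  rwa [eq_comm, ((isUnit_aeval_derivative hg hgx).map f₂).mul_right_eq_zero, sub_eq_zero] at h2

end Unram

section RatTensor

attribute [local instance] Algebra.TensorProduct.rightAlgebra in
/-- `ℚ ⊗ h` is reduced if `h` is. -/
theorem isReduced_rat_tensor (h : Type*) [CommRing h] [IsReduced h] : IsReduced (ℚ ⊗[ℤ] h) :=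
  isReduced_localizationPreserves (Algebra.algebraMapSubmonoid h (nonZeroDivisors ℤ))
    (ℚ ⊗[ℤ] h) inferInstance

/-- Every element of a reduced ring which is finite over `ℤ` is killed, in every field of
characteristic zero... more precisely: the minimal polynomial over `ℚ` of `1 ⊗ t` is
separable. -/
theorem separable_minpoly_rat_tensor (h : Type*) [CommRing h] [IsReduced h] [Module.Finite ℤ h]
    (t : h) : (minpoly ℚ ((1 : ℚ) ⊗ₜ[ℤ] t : ℚ ⊗[ℤ] h)).Separable := by
  have : IsReduced (ℚ ⊗[ℤ] h) := isReduced_rat_tensor h
  have hint : IsIntegral ℚ ((1 : ℚ) ⊗ₜ[ℤ] t : ℚ ⊗[ℤ] h) := Algebra.IsIntegral.isIntegral _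
  rw [PerfectField.separable_iff_squarefree]
  exact (minpoly.isRadical ℚ _).squarefree (minpoly.ne_zero hint)

end RatTensor

section Main

variable (R : Type*) [CommRing R] [IsDomain R] [CharZero R]
  (h : Type*) [CommRing h] [IsReduced h] [Module.Finite ℤ h]
  (T : Type*) [CommRing T] [Algebra R T] [Module.Finite R T] [Module.Flat R T]

/-- A finite flat algebra over a domain of characteristic zero which is generated by the image
of a reduced ring, finite over `ℤ`, is reduced. -/
theorem isReduced_of_adjoin_range (π : h →+* T)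
    (hπ : Algebra.adjoin R (Set.range π) = ⊤) : IsReduced T := by
  classical
  set K := FractionRing R with hK
  have : CharZero K := charZero_of_injective_algebraMap (IsFractionRing.injective R K)
  set A := K ⊗[R] T with hA
  let ι : T →ₐ[R] A := Algebra.TensorProduct.includeRight
  have hι : Function.Injective ι :=
    Algebra.TensorProduct.includeRight_injective (IsFractionRing.injective R K)
  set s : Set A := Set.range fun t : h => ι (π t) with hs
  -- generation
  have hgenT : ∀ x : T, ι x ∈ Algebra.adjoin K s := by
    intro x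
    have hx : x ∈ Algebra.adjoin R (Set.range π) := by rw [hπ]; trivial
    induction hx using Algebra.adjoin_induction with
    | mem y hy =>
      obtain ⟨t, rfl⟩ := hy
      exact Algebra.subset_adjoin ⟨t, rfl⟩
    | algebraMap r =>
      have : ι (algebraMap R T r) = algebraMap K A (algebraMap R K r) := by
        rw [AlgHom.commutes, IsScalarTower.algebraMap_apply R K A]
      rw [this]
      exact Subalgebra.algebraMap_mem _ _
    | add y z _ _ hy hz => rw [map_add]; exact Subalgebra.add_mem _ hy hz
    | mul y z _ _ hy hz => rw [map_mul]; exact Subalgebra.mul_mem _ hy hz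
  have hgen : Algebra.adjoin K s = ⊤ := by
    rw [eq_top_iff]
    rintro z -
    induction z using TensorProduct.induction_on with
    | zero => exact Subalgebra.zero_mem _
    | tmul a x =>
      have : a ⊗ₜ[R] x = a • ι x := by
        show a ⊗ₜ[R] x = a • ((1 : K) ⊗ₜ[R] x)
        rw [TensorProduct.smul_tmul', smul_eq_mul, mul_one]
      rw [this]
      exact Subalgebra.smul_mem _ (hgenT x) a
    | add y z hy hz => exact Subalgebra.add_mem _ hy hz
  -- separability of the generators
  have hsep : ∀ x ∈ s, ∃ g : K[X], g.Separable ∧ aeval x g = 0 := by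
    rintro _ ⟨t, rfl⟩
    refine ⟨(minpoly ℚ ((1 : ℚ) ⊗ₜ[ℤ] t : ℚ ⊗[ℤ] h)).map (algebraMap ℚ K),
      (separable_minpoly_rat_tensor h t).map, ?_⟩
    let f₁ : ℚ →ₐ[ℤ] A :=
      { toRingHom := (algebraMap K A).comp (algebraMap ℚ K)
        commutes' := fun n => by simp }
    let f₂ : h →ₐ[ℤ] A :=
      { toRingHom := (ι : T →+* A).comp π
        commutes' := fun n => by simp }
    let φ : ℚ ⊗[ℤ] h →ₐ[ℤ] A := Algebra.TensorProduct.productMap f₁ f₂
    have hφy : φ ((1 : ℚ) ⊗ₜ[ℤ] t) = ι (π t) := by
      show Algebra.TensorProduct.productMap f₁ f₂ ((1 : ℚ) ⊗ₜ[ℤ] t) = ι (π t)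
      rw [Algebra.TensorProduct.productMap_apply_tmul, map_one, one_mul]
      rfl
    have hcomp : (φ : ℚ ⊗[ℤ] h →+* A).comp (algebraMap ℚ (ℚ ⊗[ℤ] h)) =
        (algebraMap K A).comp (algebraMap ℚ K) := Subsingleton.elim _ _
    have h0 := minpoly.aeval ℚ ((1 : ℚ) ⊗ₜ[ℤ] t : ℚ ⊗[ℤ] h)
    have h1 := congrArg (φ : ℚ ⊗[ℤ] h →+* A) h0
    rw [map_zero, Polynomial.aeval_def, Polynomial.hom_eval₂, hcomp] at h1
    rw [Polynomial.aeval_def, Polynomial.eval₂_map]
    show eval₂ ((algebraMap K A).comp (algebraMap ℚ K)) (ι (π t)) _ = 0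
    rw [← hφy]
    exact h1
  have hFU : Algebra.FormallyUnramified K A := formallyUnramified_of_adjoin s hgen hsep
  have hRed : IsReduced A := Algebra.FormallyUnramified.isReduced_of_field K A
  exact isReduced_of_injective (ι : T →+* A) hι

end Main

end Fermat.Agent.S32
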