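import Mathlib
import Fermat.Prelude.Def_CuspForm_HeckeGaloisRepDatum
import Fermat.Agent.S32.Points
import Fermat.Agent.S32.Reduced
import Fermat.Agent.Lib.Petersson.Main
import Fermat.Agent.S22

/-!
# The coefficient ring of a Hecke–Galois datum: reducedness and DVR points
(owner: helper62)

For a datum `H : HeckeGaloisRepDatum N S 𝒪 θ T` with `𝒪` of characteristic zero and `S` containing
the primes dividing `N`:

* `isReduced_of_datum`: `T` is reduced;
* `dvrSeparation_of_datum`: (finite residue field) `T` is separated, uniformly for the `p`-adic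
  topology, by finitely many ring homomorphisms to complete discrete valuation rings of
  characteristic zero with finite residue field of characteristic `p`;
* `isLocalHom_of_dvrPt`: every such point of `T` is a local homomorphism.
-/

set_option autoImplicit false
set_option linter.style.haveILetI false
set_option linter.overlappingInstances false
set_option linter.unusedSectionVars false

namespace Fermat.Agent.S32

open Fermat.Agent.DVRPoints IsLocalRing

/-- In a discrete valuation ring of characteristic zero with finite residue field, the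
quotient by a nonzero integer is finite. -/
theorem finite_quotient_span_natCast (𝒪 : Type*) [CommRing 𝒪] [IsDomain 𝒪]
    [IsDiscreteValuationRing 𝒪] [Finite (ResidueField 𝒪)] [CharZero 𝒪] (n : ℕ) (hn : n ≠ 0) :
    Finite (𝒪 ⧸ Ideal.span {(n : 𝒪)}) := by
  have hn0 : (n : 𝒪) ≠ 0 := Nat.cast_ne_zero.2 hn
  obtain ⟨ϖ, hϖ⟩ := IsDiscreteValuationRing.exists_irreducible 𝒪
  obtain ⟨k, hk⟩ := IsDiscreteValuationRing.ideal_eq_span_pow_irreducible
    (s := Ideal.span {(n : 𝒪)}) (by simpa using hn0) hϖ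
  have h1 : Ideal.span {(n : 𝒪)} = maximalIdeal 𝒪 ^ k := by
    rw [hk, hϖ.maximalIdeal_eq, Ideal.span_singleton_pow]
  rw [h1]
  haveI : Finite (𝒪 ⧸ maximalIdeal 𝒪) := inferInstanceAs (Finite (ResidueField 𝒪))
  exact Ideal.finite_quotient_pow (IsNoetherian.noetherian (maximalIdeal 𝒪)) k

variable {p : ℕ} {N : ℕ} [NeZero N] {S : Finset ℕ}
  {𝒪 : Type} [CommRing 𝒪] [IsDomain 𝒪] [IsDiscreteValuationRing 𝒪]
  [IsAdicComplete (IsLocalRing.maximalIdeal 𝒪) 𝒪]
  {θ : CuspForm.heckeAlgebra N 2 (↑S : Set ℕ) →+* IsLocalRing.ResidueField 𝒪}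
  {T : Type} [CommRing T] [IsLocalRing T] [IsNoetherianRing T]
  [IsAdicComplete (IsLocalRing.maximalIdeal T) T] [Algebra 𝒪 T] [IsLocalHom (algebraMap 𝒪 T)]
  [Module.Finite 𝒪 T] [Module.Free 𝒪 T]

/-- The coefficient ring of a datum is reduced. -/
theorem isReduced_of_datum [CharZero 𝒪] (hNS : ∀ q : ℕ, q.Prime → q ∣ N → q ∈ S)
    (H : CuspForm.HeckeGaloisRepDatum N (↑S : Set ℕ) 𝒪 θ T) : IsReduced T := by
  have : Module.Finite ℤ (CuspForm.heckeAlgebra N 2 (↑S : Set ℕ)) :=
    Fermat.Agent.S22.result N 2 _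
  have : IsReduced (CuspForm.heckeAlgebra N 2 (↑S : Set ℕ)) :=
    Fermat.Agent.Pet.isReduced_heckeAlgebra N 2 _ (fun q hq hqN => by exact_mod_cast hNS q hq hqN)
  exact isReduced_of_adjoin_range 𝒪 (CuspForm.heckeAlgebra N 2 (↑S : Set ℕ)) T H.π
    H.adjoin_range_π

omit [IsLocalRing T] [IsNoetherianRing T] [IsAdicComplete (IsLocalRing.maximalIdeal T) T]
  [IsLocalHom (algebraMap 𝒪 T)] [IsAdicComplete (IsLocalRing.maximalIdeal 𝒪) 𝒪] [NeZero N] in
/-- `T ⧸ (p)` is finite. -/
theorem finite_quotient_datum [Finite (ResidueField 𝒪)] [CharZero 𝒪] (hp : p.Prime) :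
    Finite (T ⧸ Ideal.span {(p : T)}) := by
  refine finite_quotient_of_mem (p : 𝒪) (finite_quotient_span_natCast 𝒪 p hp.ne_zero) _ ?_
  rw [map_natCast]
  exact Ideal.mem_span_singleton_self _

/-- The coefficient ring of a datum is separated, uniformly for the `p`-adic topology, by
finitely many DVR points. -/
theorem dvrSeparation_of_datum [Finite (ResidueField 𝒪)] [CharZero 𝒪] (hp : p.Prime)
    (hNS : ∀ q : ℕ, q.Prime → q ∣ N → q ∈ S)
    (H : CuspForm.HeckeGaloisRepDatum N (↑S : Set ℕ) 𝒪 θ T) : DVRSeparation p T := by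
  have := isReduced_of_datum hNS H
  refine dvrSeparation_of_finite 𝒪 T (fun a x ha hax => ?_) p hp
    (finite_quotient_span_natCast 𝒪 p hp.ne_zero)
  exact (smul_eq_zero.1 hax).resolve_left ha

omit [IsNoetherianRing T] [IsAdicComplete (IsLocalRing.maximalIdeal T) T]
  [IsLocalHom (algebraMap 𝒪 T)] [IsAdicComplete (IsLocalRing.maximalIdeal 𝒪) 𝒪] [NeZero N] in
/-- Every DVR point of the coefficient ring of a datum is a local homomorphism. -/
theorem isLocalHom_of_dvrPt [Finite (ResidueField 𝒪)] [CharZero 𝒪] (hp : p.Prime)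
    (P : DVRPt p T) : IsLocalHom P.χ :=
  isLocalHom_of_natCast_mem p (finite_quotient_datum (𝒪 := 𝒪) hp) P.hp P.χ

end Fermat.Agent.S32
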