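import Fermat.Agent.S32.Assembly
import Fermat.Agent.F3.FinalWire
import Fermat.Agent.F3.I2.Final
import Fermat.Agent.Lib.GaussInt.KeyAux

/-!
# S32 from S19 (owner: helper62)

`s32_of_s19`: the frozen statement of S32, with exactly its binders, from the frozen statement of
S19 (`S19Statement`).  All the inputs of cluster A are theorems on `main`.
-/

set_option autoImplicit false
set_option linter.unusedSectionVars false
set_option linter.unusedVariables false

namespace Fermat.Agent.S32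

variable {p : ℕ} {N : ℕ} [NeZero N] {S : Finset ℕ}
  {𝒪 : Type} [CommRing 𝒪] [IsDomain 𝒪] [IsDiscreteValuationRing 𝒪]
  [IsAdicComplete (IsLocalRing.maximalIdeal 𝒪) 𝒪]
  {θ : CuspForm.heckeAlgebra N 2 (↑S : Set ℕ) →+* IsLocalRing.ResidueField 𝒪}
  {T : Type} [CommRing T] [IsLocalRing T] [IsNoetherianRing T]
  [IsAdicComplete (IsLocalRing.maximalIdeal T) T] [Algebra 𝒪 T] [IsLocalHom (algebraMap 𝒪 T)]
  [Module.Finite 𝒪 T] [Module.Free 𝒪 T]

/-- **S32 from S19.** -/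
theorem s32_of_s19 (h19 : S19Statement)
    [Finite (IsLocalRing.ResidueField 𝒪)] [CharZero 𝒪]
    (hp : p.Prime) (hp2 : p ≠ 2) (hp𝒪 : (p : 𝒪) ∈ IsLocalRing.maximalIdeal 𝒪) (hpN : ¬ p ∣ N)
    (hpS : p ∈ S) (hNS : ∀ q : ℕ, q.Prime → q ∣ N → q ∈ S)
    (H : CuspForm.HeckeGaloisRepDatum N (↑S : Set ℕ) 𝒪 θ T) :
    H.ρ.IsFlatAt p :=
  isFlatAt_of_s19 h19
    (Fermat.Agent.F3W.eigenclassPadic_of_kappaAllW (Fermat.Agent.F3I2.kappaAll N))
    (Fermat.Agent.F3TF.torsionFinite N)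
    (Fermat.Agent.GaussInt.torsionUnramified_of_keyLemmaAt
      (Fermat.Agent.GaussInt.keyLemmaAt_all N))
    (Fermat.Agent.GaussIntFP.torsionFrobQuadratic_of_keyLemmaAt
      (Fermat.Agent.GaussInt.keyLemmaAt_all N) (Fermat.Agent.F3W.heckeInputs_all N))
    (Fermat.Agent.F3.torsionOpenStab N) (Fermat.Agent.F3G.heckeGaloisComm N)
    hp hp𝒪 hpN hpS hNS H

end Fermat.Agent.S32
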