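import Fermat.Agent.S30.TateLattice

/-!
# S32 glue, piece P3: the Tate eigen-lattice of `J₀(N)` with its evaluation maps
(architect: helper62; proof: helper65)

Same construction as `Fermat.Agent.S30.frobLattice_of_interfaces` (the lattice is
`S30Tate.eigenTate`, the action `eigenTateRep (galBC 𝒪 J)`), keeping in addition the evaluation
maps `ev m : Λ → 𝒪 ⊗ J`, `X ↦ X m` (`S30Tate.tateEval`): they are Galois-equivariant, land in the
`p ^ m`-torsion (`S30Tate.eigenTate_pow_smul_self`) and have kernel `p ^ m Λ`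
(`S30Tate.exists_eq_pow_smul` + `S30Tate.eigenTate_saturated`).

* `exists_eigenLattice_eval` : the abstract form (`S30Tate.exists_eigenLattice` with the
  evaluation maps);
* `exists_frobLattice_eval` : **P3**.
-/

set_option autoImplicit false
set_option linter.unusedSectionVars false
set_option linter.style.haveILetI false

noncomputable section

namespace Fermat.Agent.S32

open ModularCurve AlgebraicCurve IsLocalRing Fermat.Agent.S30 Fermat.Agent.S30Tate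
open scoped TensorProduct

/-- **the eigen-lattice with its evaluation maps, abstract form**
(`S30Tate.exists_eigenLattice` + `ev`). -/
theorem exists_eigenLattice_eval
    {O : Type} [CommRing O] [IsDomain O] [IsDiscreteValuationRing O]
    [IsAdicComplete (maximalIdeal O) O] [CharZero O]
    {p : ℕ} (hp : p.Prime) (hpO : (p : O) ∈ maximalIdeal O)
    {J : Type} [AddCommGroup J] {G : Type} [Group G] [DistribMulAction G J]
    {ι : Type} (T : ι → Module.End ℤ J) (c : ι → O)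
    (hT : ∀ i (σ : G) (x : J), T i (σ • x) = σ • T i x)
    (hfin : {x : J | p • x = 0}.Finite)
    (μ : ∀ n, Submodule.torsionBy ℤ J ((p ^ (n + 1) : ℕ) : ℤ) →ₗ[ℤ]
      Submodule.torsionBy ℤ J ((p ^ n : ℕ) : ℤ))
    (hμ : ∀ n (y : Submodule.torsionBy ℤ J ((p ^ (n + 1) : ℕ) : ℤ)),
      ((μ n y : Submodule.torsionBy ℤ J ((p ^ n : ℕ) : ℤ)) : J) = (p : ℤ) • (y : J))
    (Tt : ∀ (_ : ι) (n : ℕ), Submodule.torsionBy ℤ J ((p ^ n : ℕ) : ℤ) →ₗ[ℤ]
      Submodule.torsionBy ℤ J ((p ^ n : ℕ) : ℤ))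
    (hTt : ∀ i n (y : Submodule.torsionBy ℤ J ((p ^ n : ℕ) : ℤ)),
      ((Tt i n y : Submodule.torsionBy ℤ J ((p ^ n : ℕ) : ℤ)) : J) = T i (y : J))
    (x : (n : ℕ) → O ⊗[ℤ] Submodule.torsionBy ℤ J ((p ^ n : ℕ) : ℤ))
    (hx0 : ∃ n, x n ≠ 0)
    (hcompat : ∀ n, (μ n).baseChange O (x (n + 1)) = x n)
    (heig : ∀ i n, (Tt i n).baseChange O (x n) = c i • x n) :
    ∃ (Λ : Type) (_ : AddCommGroup Λ) (_ : Module O Λ) (_ : Module.Free O Λ)
      (_ : Module.Finite O Λ) (_ : Nontrivial Λ) (ρ : G →* Module.End O Λ)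
      (ev : ℕ → Λ →ₗ[O] O ⊗[ℤ] J),
      (∀ (n : ℕ) (σ : G), (∀ y : J, p ^ n • y = 0 → σ • y = y) →
          ∀ v : Λ, ρ σ v - v ∈ (maximalIdeal O ^ n) • (⊤ : Submodule O Λ)) ∧
      (∀ σ : G, (∀ (n : ℕ) (y : J), p ^ n • y = 0 → σ • y = y) → ρ σ = 1) ∧
      (∀ (σ : G) (i : ι) (ℓ : ℕ),
          (∀ (n : ℕ) (y : J), p ^ n • y = 0 → σ • σ • y - T i (σ • y) + ℓ • y = 0) →
          ρ σ * ρ σ - c i • ρ σ + (ℓ : O) • (1 : Module.End O Λ) = 0) ∧
      (∀ (m : ℕ) (σ : G) (v : Λ), ev m (ρ σ v) = galBC O J σ (ev m v)) ∧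
      (∀ (m : ℕ) (v : Λ), (p : O) ^ m • ev m v = 0) ∧
      (∀ (m : ℕ) (v : Λ), ev m v = 0 → ∃ y : Λ, v = (p : O) ^ m • y) := by
  have hπ0 : (p : O) ≠ 0 := Nat.cast_ne_zero.mpr hp.ne_zero
  have hfg : (Submodule.torsionBy O (O ⊗[ℤ] J) (p : O)).FG := torsionBy_tensor_fg O p hfin
  have hcomm : ∀ (σ : G) (i : ι) (m : O ⊗[ℤ] J),
      (T i).baseChange O (galBC O J σ m) = galBC O J σ ((T i).baseChange O m) :=
    fun σ i m => galBC_comm O (T i) (hT i) σ m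
  have hcast : ∀ (n : ℕ) (m : O ⊗[ℤ] J), (p : O) ^ n • m = 0 →
      ((p ^ n : ℕ) : O) • m = 0 := fun n m hm => by
    rw [Nat.cast_pow]; exact hm
  obtain ⟨X, hX, hXne⟩ := exists_mem_eigenTate_ne_zero T c μ hμ Tt hTt x hx0 hcompat heig
  refine ⟨eigenTate (p : O) (fun i => (T i).baseChange O) c, inferInstance, inferInstance,
    eigenTate_free hpO hπ0 hfg, eigenTate_finite hpO hπ0 hfg,
    ⟨⟨⟨X, hX⟩, 0, fun h => hXne (congrArg Subtype.val h)⟩⟩,
    eigenTateRep (galBC O J) hcomm,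
    fun m => (LinearMap.proj m).comp
      (eigenTate (p : O) (fun i => (T i).baseChange O) c).subtype, ?_, ?_, ?_, ?_, ?_, ?_⟩
  · intro n σ hfix v
    exact eigenTateRep_sub_mem (galBC O J) hcomm hpO hπ0
      (fun m hm => galBC_fix O (p ^ n) σ hfix m (hcast n m hm)) v
  · intro σ hfix
    apply eigenTateRep_eq_one
    intro n m hm
    exact galBC_fix O (p ^ n) σ (hfix n) m (hcast n m hm)
  · intro σ i ℓ hq
    exact eigenTateRep_quadratic (h := fun i => (T i).baseChange O) (galBC O J) hcomm i (ℓ : O)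
      (fun n m hm => galBC_quadratic O (p ^ n) σ (T i) ℓ (hq n) m (hcast n m hm))
  · -- equivariance of the evaluation
    intro m σ v
    rfl
  · -- the values are killed by `p ^ m`
    intro m v
    exact eigenTate_pow_smul_self v m
  · -- the kernel of the evaluation
    intro m v hv
    obtain ⟨y, hy, hy'⟩ := exists_eq_pow_smul v.2.1 (m := m) hv
    have hy2 : y ∈ eigenTate (p : O) (fun i => (T i).baseChange O) c :=
      eigenTate_saturated hpO (pow_ne_zero m hπ0) hy (hy' ▸ v.2)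
    exact ⟨⟨y, hy2⟩, Subtype.ext hy'⟩

/-- **P3.** The Tate eigen-lattice at a point `χ` of the Hecke algebra, with evaluation maps. -/
theorem exists_frobLattice_eval (N : ℕ) [NeZero N]
    (hE : EigenclassPadic N) (hFin : F3.TorsionFinite N)
    (hUnr : F3.TorsionUnramified N) (hFrob : F3.TorsionFrobQuadratic N)
    (hOpen : F3.TorsionOpenStab N) (hComm : F3.HeckeGaloisComm N)
    (p : ℕ) [Fact p.Prime] (S : Finset ℕ) (hpS : p ∈ S)
    (hNS : ∀ q : ℕ, q.Prime → q ∣ N → q ∈ S)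
    (𝒪 : Type) [CommRing 𝒪] [IsDomain 𝒪] [IsDiscreteValuationRing 𝒪]
    [IsAdicComplete (maximalIdeal 𝒪) 𝒪] [Finite (ResidueField 𝒪)] [CharZero 𝒪]
    (hp𝒪 : (p : 𝒪) ∈ maximalIdeal 𝒪) (χ : CuspForm.heckeAlgebra N 2 (↑S : Set ℕ) →+* 𝒪) :
    ∃ (L : FrobLattice p N S 𝒪 (heckeEigenvalue χ))
      (ev : ℕ → L.Λ →ₗ[𝒪] 𝒪 ⊗[ℤ] JZero N),
      (∀ (m : ℕ) (σ : GQ) (x : L.Λ), ev m (L.ρ σ x) = galBC 𝒪 (JZero N) σ (ev m x)) ∧
      (∀ (m : ℕ) (x : L.Λ), (p : 𝒪) ^ m • ev m x = 0) ∧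
      (∀ (m : ℕ) (x : L.Λ), ev m x = 0 → ∃ y : L.Λ, x = (p : 𝒪) ^ m • y) := by
  have hp : p.Prime := Fact.out
  obtain ⟨x, hx0, hcompat, heig⟩ := hE p S hpS hNS 𝒪 hp𝒪 χ
  obtain ⟨Λ, _, _, _, _, _, ρ, ev, hcont, hunr, hfrob, hev1, hev2, hev3⟩ :=
    exists_eigenLattice_eval (O := 𝒪) (G := GQ) (J := JZero N) (ι := HeckeIdx N S) hp hp𝒪
      (fun i => heckeOperatorBar N ⟨i.1, i.2.1⟩)
      (fun i => χ (CuspForm.heckeAlgebra.T i.2.1 i.2.2.1 i.2.2.2))
      (fun i σ y => hComm ⟨i.1, i.2.1⟩ σ y)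
      (hFin p hp.pos)
      (fun n => mulPTors N p n)
      (fun n y => mulPTors_coe N p n y)
      (fun i n => F3.heckeTors N (p ^ n) ⟨i.1, i.2.1⟩)
      (fun i n y => rfl)
      x hx0 hcompat
      (fun i n => heig n i.1 i.2.1 i.2.2.1 i.2.2.2)
  refine ⟨{
    Λ := Λ
    ρ := ρ
    cont := ?_
    unram := ?_
    frob := ?_ }, ev, hev1, hev2, hev3⟩
  · -- adic continuity
    intro n
    have hpos : 0 < p ^ n := pow_pos hp.pos n
    haveI : Finite {y : JZero N // p ^ n • y = 0} := (hFin (p ^ n) hpos).to_subtype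
    choose L hLfin hL using fun y : {y : JZero N // p ^ n • y = 0} => hOpen (p ^ n) hpos y.1 y.2
    haveI : ∀ y, FiniteDimensional ℚ (L y) := hLfin
    refine ⟨⨆ y, L y, inferInstance, fun σ hσ v => ?_⟩
    have hfix : ∀ y : JZero N, p ^ n • y = 0 → σ • y = y := fun y hy =>
      hL ⟨y, hy⟩ σ (fun z hz => hσ z (le_iSup L ⟨y, hy⟩ hz))
    exact hcont n σ hfix v
  · -- unramified
    intro q hq hqN hqp P hP σ hσ
    exact hunr σ (fun n y hy =>
      hUnr (p ^ n) q hq (not_dvd_mul_pow hp hq hqN hqp n) P hP σ hσ y hy)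
  · -- Frobenius relation
    intro ℓ hℓ hℓS A hA σ hσ
    have hℓS' : ℓ ∉ (↑S : Set ℕ) := fun h => hℓS (Finset.mem_coe.mp h)
    have hℓN : ¬ ℓ ∣ N := fun h => hℓS (hNS ℓ hℓ h)
    have hℓp : ℓ ≠ p := fun h => hℓS (h ▸ hpS)
    rw [heckeEigenvalue_eq χ hℓ hℓN hℓS']
    exact hfrob σ (⟨ℓ, hℓ, hℓN, hℓS'⟩ : HeckeIdx N S) ℓ (fun n y hy =>
      hFrob (p ^ n) ℓ hℓ (not_dvd_mul_pow hp hℓ hℓN hℓp n) A hA σ hσ y hy)

end Fermat.Agent.S32
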