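import Mathlib
import Fermat.Agent.Lib.TraceRigidity.Core

/-!
# S32 glue, piece P2a: a representation whose trace is a sum of two characters has no four
matrices spanning `M₂(R)`
(architect: helper62; proof: helper12)

Proof: `D g := diagonal ![η g, η' g]` is multiplicative with the same trace as `r`, so
`gramMat r g = gramMat D g` (entries `trace (r (g j * g l))`); the row `(0, 1)` of `coordMat D g`
is zero, so `det (coordMat D g) = 0`, so `det (gramMat D g) = 0` (`gramMat_eq`), while
`IsUnit (gramMat r g).det` by `isUnit_det_gramMat_iff`.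
-/

set_option autoImplicit false

namespace Fermat.Agent.S32

open Matrix Fermat.Agent.TraceRigidity

/-- the diagonal family of two characters. -/
def noLineDiag {R : Type*} [CommRing R] {G : Type*} (η η' : G → R) (x : G) :
    Matrix (Fin 2) (Fin 2) R :=
  Matrix.diagonal ![η x, η' x]

theorem noLineDiag_mul {R : Type*} [CommRing R] {G : Type*} [Monoid G] (η η' : G →* R)
    (x y : G) : noLineDiag η η' (x * y) = noLineDiag η η' x * noLineDiag η η' y := by
  unfold noLineDiag
  rw [Matrix.diagonal_mul_diagonal]
  congr 1
  ext i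
  fin_cases i <;> simp

theorem noLineDiag_trace {R : Type*} [CommRing R] {G : Type*} (η η' : G → R) (x : G) :
    (noLineDiag η η' x).trace = η x + η' x := by
  unfold noLineDiag
  rw [Matrix.trace_diagonal, Fin.sum_univ_two]
  rfl

theorem det_coordMat_noLineDiag {R : Type*} [CommRing R] {G : Type*} (η η' : G → R)
    (g : Fin 2 × Fin 2 → G) : (coordMat (noLineDiag η η') g).det = 0 := by
  refine Matrix.det_eq_zero_of_row_eq_zero ((0 : Fin 2), (1 : Fin 2)) fun j => ?_
  show noLineDiag η η' (g j) 0 1 = 0
  unfold noLineDiag
  exact Matrix.diagonal_apply_ne _ (by decide)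

/-- **P2a.** -/
theorem not_isUnit_det_coordMat_of_trace_eq_add {R : Type*} [CommRing R] [Nontrivial R]
    {G : Type*} [Monoid G] (r : G →* Matrix (Fin 2) (Fin 2) R) (η η' : G →* R)
    (htr : ∀ x : G, (r x).trace = η x + η' x) (g : Fin 2 × Fin 2 → G) :
    ¬ IsUnit (coordMat (fun x => r x) g).det := by
  intro hu
  have hG : gramMat (fun x => r x) g = gramMat (noLineDiag η η') g := by
    ext j l
    simp only [gramMat, Matrix.of_apply]
    rw [← map_mul, htr, ← noLineDiag_mul, noLineDiag_trace]
  have h1 : IsUnit (gramMat (fun x => r x) g).det := (isUnit_det_gramMat_iff _ g).2 hu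
  rw [hG, gramMat_eq, Matrix.det_mul, Matrix.det_transpose, det_coordMat_noLineDiag,
    zero_mul] at h1
  exact not_isUnit_zero h1

end Fermat.Agent.S32
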