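import Fermat.Agent.S32.Plane
import Fermat.Agent.S32.NoLine
import Fermat.Agent.S30.Assembly
import Fermat.Agent.Lib.TraceRigidity.Points
import Fermat.Agent.S34.Transfer

/-!
# S32 glue, piece P2: a residually absolutely irreducible representation with the Frobenius
characteristic polynomials of a `FrobLattice` embeds in the lattice
(owner: helper62)

`exists_embedding_of_frobLattice`: let `L` be a `FrobLattice` over a discrete valuation ring `O`
(characteristic zero) for the eigenvalues `a`, and `ρ₁ : GaloisRepAdic O` a representation, four of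
whose matrices span `M₂(O)`, with `charpoly ρ₁(Frob_ℓ) = X² - a_ℓ X + ℓ` for the primes `ℓ ∉ S`.
Then there is an injective `G_ℚ`-equivariant `O`-linear map `ρ₁.V → L.Λ` with saturated image.
-/

set_option autoImplicit false
set_option linter.unusedSectionVars false
set_option linter.style.haveILetI false

namespace Fermat.Agent.S32

open Module Polynomial IsLocalRing Matrix Fermat.Agent.S30 Fermat.Agent.TraceRigidity

local notation "GQ" => (AlgebraicClosure ℚ ≃ₐ[ℚ] AlgebraicClosure ℚ)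

section

variable {p N : ℕ} {S : Finset ℕ} {O : Type} [CommRing O] [IsDomain O]
  [IsDiscreteValuationRing O] [CharZero O]

/-- The representation on a saturated stable submodule of rank two of a `FrobLattice`. -/
noncomputable def planeRep (a : ℕ → O) (L : FrobLattice p N S O a) (M : Submodule O L.Λ)
    (hM : ∀ (g : GQ) (x : L.Λ), x ∈ M → L.ρ g x ∈ M) (hsat : IsSatSub M)
    (hfin : Module.finrank O M = 2) : GaloisRepAdic O :=
  { V := M
    finrank_eq := hfin
    ρ := restrictRepR L.ρ M hM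
    isAdicContinuous := by
      intro n
      obtain ⟨L₁, hL₁fin, hL₁⟩ := L.cont n
      refine ⟨L₁, hL₁fin, fun σ hσ y => ?_⟩
      obtain ⟨ϖ, hϖ⟩ := IsDiscreteValuationRing.exists_irreducible O
      obtain ⟨z, hz⟩ := (mem_maximalIdeal_pow_smul_top hϖ n _).mp (hL₁ σ hσ (y : L.Λ))
      have hzM : z ∈ M := by
        apply hsat (ϖ ^ n) z (pow_ne_zero _ hϖ.ne_zero)
        rw [← hz]
        exact M.sub_mem (hM σ _ y.2) y.2
      rw [mem_maximalIdeal_pow_smul_top hϖ]
      refine ⟨⟨z, hzM⟩, ?_⟩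
      apply Subtype.ext
      simpa using hz }

/-- **P2.** -/
theorem exists_embedding_of_frobLattice (hdens : Fermat.Agent.F3.FrobDensityLite) (hpS : p ∈ S) (a : ℕ → O)
    (L : FrobLattice p N S O a) (E : CycloCharData p O)
    (ρ₁ : GaloisRepAdic O) (b₁ : Basis (Fin 2) O ρ₁.V) (g : Fin 2 × Fin 2 → GQ)
    (hg : IsUnit (coordMat (fun σ => LinearMap.toMatrix b₁ b₁ (ρ₁.ρ σ)) g).det)
    (hfrob : ∀ ℓ : ℕ, ℓ.Prime → ℓ ∉ S →
      ∀ A : ValuationSubring (AlgebraicClosure ℚ), A.LiesOverPrime ℓ →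
        ∀ σ : GQ, A.IsFrobeniusAt σ ℓ →
          LinearMap.charpoly (ρ₁.ρ σ) = X ^ 2 - C (a ℓ) * X + C ((ℓ : O))) :
    ∃ f : ρ₁.V →ₗ[O] L.Λ, Function.Injective f ∧
      (∀ (σ : GQ) (v : ρ₁.V), f (ρ₁.ρ σ v) = L.ρ σ (f v)) ∧
      ∀ (c : O) (x : L.Λ), c ≠ 0 → c • x ∈ LinearMap.range f → x ∈ LinearMap.range f := by
  classical
  obtain ⟨t, hQ, ht⟩ := exists_quadRel_of_frobLattice hdens hpS a L E
  -- the abstract representation of S30 and the trace of `ρ₁`
  have htr₁ : ∀ σ : GQ, LinearMap.trace O ρ₁.V (ρ₁.ρ σ) = t σ := by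
    obtain ⟨V, iV1, iV2, iV3, iV4, ρ', hfin, hchar, hcont, hker⟩ :=
      repConclusion_of_quadRel L.ρ E.ε t hQ complexConjugation complexConjugation_mul_self E.conj
    have hadic : GaloisActionIsAdicContinuous O ρ' := by
      intro n
      obtain ⟨L₁, hL₁fin, hL₁⟩ := L.cont n
      obtain ⟨L₂, hL₂fin, hL₂⟩ := E.level n
      refine ⟨L₁ ⊔ L₂, IntermediateField.finiteDimensional_sup L₁ L₂, ?_⟩
      intro σ hσ v
      exact hcont n σ (hL₁ σ (fun x hx => hσ x (le_sup_left (a := L₁) (b := L₂) hx)))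
        (hL₂ σ (fun x hx => hσ x (le_sup_right (a := L₁) (b := L₂) hx))) v
    set ρA : GaloisRepAdic O :=
      { V := V, finrank_eq := hfin, ρ := ρ', isAdicContinuous := hadic } with hρA
    intro σ
    have h1 := trace_eq_of_charpoly_frob_eq hdens ρ₁ ρA S (fun ℓ hℓ hℓS A hA τ hτ => by
      have hℓp : ℓ ≠ p := fun h => hℓS (h ▸ hpS)
      rw [hfrob ℓ hℓ hℓS A hA τ hτ]
      show _ = LinearMap.charpoly (ρ' τ)
      rw [hchar τ, ht ℓ hℓ hℓS A hA τ hτ, E.frob ℓ hℓ hℓp A hA τ hτ]) σ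
    rw [h1]
    exact (Fermat.Agent.S34.trace_det_of_charpoly_eq hfin (ρ' σ) _ _ (hchar σ)).1
  rcases line_or_plane_of_quadRel L.ρ E.ε t hQ complexConjugation complexConjugation_mul_self
    E.conj with ⟨u, hu0, hu⟩ | ⟨M, hM, hsat, hfinM, hcharM⟩
  · -- the line case is impossible
    exfalso
    have hsmul : ∀ {c d : O}, c • u = d • u → c = d := fun {c d} h =>
      smul_left_injective O hu0 h
    choose η hη using fun σ : GQ => Submodule.mem_span_singleton.mp (hu σ)
    -- hη : η σ • u = L.ρ σ u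
    have hη1 : η 1 = 1 := by
      apply hsmul
      rw [hη, map_one, Module.End.one_apply, one_smul]
    have hηmul : ∀ σ τ : GQ, η (σ * τ) = η σ * η τ := by
      intro σ τ
      apply hsmul
      rw [hη, map_mul, Module.End.mul_apply, ← hη τ, map_smul, ← hη σ, smul_smul, mul_comm]
    let ηh : GQ →* O := { toFun := η, map_one' := hη1, map_mul' := hηmul }
    have hinv : ∀ σ : GQ, η σ * η σ⁻¹ = 1 := fun σ => by
      rw [← hηmul, mul_inv_cancel, hη1]
    let η₂ : GQ →* O :=
      { toFun := fun σ => ((E.ε σ : Oˣ) : O) * η σ⁻¹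
        map_one' := by simp [hη1]
        map_mul' := fun σ τ => by
          simp only [map_mul, Units.val_mul, _root_.mul_inv_rev, hηmul]
          ring }
    have hquad : ∀ σ : GQ, η σ * η σ - t σ * η σ + ((E.ε σ : Oˣ) : O) = 0 := by
      intro σ
      apply hsmul
      have h1 := hQ.apply σ u
      rw [zero_smul, ← h1, ← hη σ, map_smul, ← hη σ]
      simp only [add_smul, sub_smul, mul_smul]
    have ht2 : ∀ σ : GQ, t σ = η σ + ((E.ε σ : Oˣ) : O) * η σ⁻¹ := by
      intro σ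
      have h1 := hquad σ
      have h2 := hinv σ
      linear_combination (-(η σ⁻¹)) * h1 + (η σ - t σ) * h2
    set r : GQ →* Matrix (Fin 2) (Fin 2) O :=
      ((LinearMap.toMatrixAlgEquiv b₁ : Module.End O ρ₁.V ≃ₐ[O] Matrix (Fin 2) (Fin 2) O) :
        Module.End O ρ₁.V →* Matrix (Fin 2) (Fin 2) O).comp ρ₁.ρ with hr
    have hra : ∀ σ, r σ = LinearMap.toMatrix b₁ b₁ (ρ₁.ρ σ) := fun σ => rfl
    refine not_isUnit_det_coordMat_of_trace_eq_add r ηh η₂ (fun σ => ?_) g hg
    rw [hra, ← LinearMap.trace_eq_matrix_trace O b₁, htr₁, ht2]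
    rfl
  · -- the plane case
    have htrM : ∀ σ : GQ, LinearMap.trace O (planeRep a L M hM hsat hfinM).V
        ((planeRep a L M hM hsat hfinM).ρ σ) = t σ := fun σ =>
      (Fermat.Agent.S34.trace_det_of_charpoly_eq hfinM (restrictRepR L.ρ M hM σ) _ _
        (hcharM σ)).1
    obtain ⟨e⟩ := isEquiv_of_trace_eq_of_basis ρ₁ (planeRep a L M hM hsat hfinM) b₁ g hg
      (fun σ => (htr₁ σ).trans (htrM σ).symm)
    let e' : ρ₁.V ≃ₗ[O] M := e.toLinearEquiv
    have he' : ∀ (σ : GQ) (v : ρ₁.V), e' (ρ₁.ρ σ v) = restrictRepR L.ρ M hM σ (e' v) :=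
      fun σ v => e.map_apply σ v
    refine ⟨M.subtype ∘ₗ (e' : ρ₁.V →ₗ[O] M), ?_, ?_, ?_⟩
    · exact (Submodule.injective_subtype M).comp e'.injective
    · intro σ v
      show ((e' (ρ₁.ρ σ v) : M) : L.Λ) = L.ρ σ ((e' v : M) : L.Λ)
      rw [he']
      rfl
    · rintro c x hc ⟨v, hv⟩
      have hxM : x ∈ M := by
        apply hsat c x hc
        rw [← hv]
        exact (e' v).2
      refine ⟨e'.symm ⟨x, hxM⟩, ?_⟩
      show ((e' (e'.symm ⟨x, hxM⟩) : M) : L.Λ) = x
      rw [LinearEquiv.apply_symm_apply]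

end

end Fermat.Agent.S32
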