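import Mathlib

/-!
# S32 glue, piece P5a/P5f: two small lemmas on local rings
(architect: helper62; proofs: helper12)
-/

set_option autoImplicit false

namespace Fermat.Agent.S32

open IsLocalRing

/-- a natural number prime to `p` is a unit in a local ring with `p` in the maximal ideal. -/
theorem isUnit_natCast_of_coprime {T : Type*} [CommRing T] [IsLocalRing T] (p : ℕ)
    (hpT : (p : T) ∈ maximalIdeal T) (n : ℕ) (hn : Nat.Coprime n p) : IsUnit (n : T) := by
  by_contra hu
  have hnm : (n : T) ∈ maximalIdeal T := (mem_maximalIdeal _).mpr hu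
  have h1 : ((n : ℤ) : T) * ((Nat.gcdA n p : ℤ) : T) + ((p : ℤ) : T) * ((Nat.gcdB n p : ℤ) : T)
      = 1 := by
    have h := Nat.gcd_eq_gcd_ab n p
    rw [hn.gcd_eq_one] at h
    have h2 := congrArg (fun z : ℤ => (z : T)) h
    simp only [Int.cast_add, Int.cast_mul, Nat.cast_one, Int.cast_one, Int.cast_natCast] at h2
    simp only [Int.cast_natCast]
    exact h2.symm
  have h3 : (1 : T) ∈ maximalIdeal T := by
    rw [← h1]
    simp only [Int.cast_natCast]
    exact Ideal.add_mem _ (Ideal.mul_mem_right _ _ hnm) (Ideal.mul_mem_right _ _ hpT)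
  exact (Ideal.ne_top_iff_one _).mp (maximalIdeal.isMaximal T).ne_top h3

/-- **P5a.** In a local ring with `p` in the maximal ideal, every ideal of finite index contains
a power of `p`.  (The additive order `n` of `1` in `T ⧸ I` is `p ^ r * n'` with `n'` prime to `p`,
and `n'` is a unit of `T`.) -/
theorem exists_natCast_pow_mem_of_finite {T : Type*} [CommRing T] [IsLocalRing T] (p : ℕ)
    (hp : p.Prime) (hpT : (p : T) ∈ maximalIdeal T) (I : Ideal T) (hI : Finite (T ⧸ I)) :
    ∃ r : ℕ, (p : T) ^ r ∈ I := by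
  classical
  have hn0 : Nat.card (T ⧸ I) ≠ 0 := Nat.card_pos.ne'
  have hnI : ((Nat.card (T ⧸ I) : ℕ) : T) ∈ I := by
    rw [← Ideal.Quotient.eq_zero_iff_mem, map_natCast]
    have h := card_nsmul_eq_zero' (G := T ⧸ I) (x := 1)
    rwa [nsmul_eq_mul, mul_one] at h
  obtain ⟨r, n', hn', hn⟩ := Nat.exists_eq_pow_mul_and_not_dvd hn0 p hp.ne_one
  have hcop : Nat.Coprime n' p := ((Nat.Prime.coprime_iff_not_dvd hp).mpr hn').symm
  obtain ⟨u, hu⟩ := isUnit_natCast_of_coprime p hpT n' hcop
  refine ⟨r, ?_⟩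
  rw [hn, Nat.cast_mul, Nat.cast_pow, ← hu] at hnI
  have := Ideal.mul_mem_right ((u⁻¹ : Tˣ) : T) I hnI
  rwa [mul_assoc, Units.mul_inv, mul_one] at this

/-- **P5f.** The residue field of a local algebra `T` over a local ring `𝒪` with finite residue
field is finite if `𝒪 → T ⧸ 𝔪_T` is onto. -/
theorem finite_residueField_of_surjective {𝒪 T : Type*} [CommRing 𝒪] [IsLocalRing 𝒪]
    [CommRing T] [IsLocalRing T] [Algebra 𝒪 T] [IsLocalHom (algebraMap 𝒪 T)]
    [Finite (ResidueField 𝒪)]
    (hsurj : Function.Surjective (IsLocalRing.residue T ∘ algebraMap 𝒪 T)) :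
    Finite (ResidueField T) := by
  refine Finite.of_surjective (ResidueField.map (algebraMap 𝒪 T)) fun y => ?_
  obtain ⟨x, hx⟩ := hsurj y
  exact ⟨IsLocalRing.residue 𝒪 x, by rw [ResidueField.map_residue]; exact hx⟩

end Fermat.Agent.S32
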