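import Fermat.Agent.Lib.FlatMod.Pi
import Fermat.Agent.S30.TateBaseChange

/-!
# S32 glue, piece P4: Galois modules which embed into `∏ᵢ (Oᵢ ⊗ J)[p ^ m]` are flat
(architect: helper62; proof: helper57)

`J` an abelian group with an action of `G_ℚ` such that `J[p ^ m]` is the module of points of a
finite flat group scheme over `ℤ_(p)` (hypothesis `hW`, in the exact shape of the frozen S19).
Let `O i` (`i : Fin d`) be flat `ℤ`-algebras with `O i ⧸ (p ^ m)` finite, and
`Φ : V →+ ∏ᵢ O i ⊗ J` an equivariant additive map with values in the `p ^ m`-torsion.  Then every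
equivariant quotient `q : V ↠ Q` with `ker Φ ≤ ker q` is flat.

Proof sketch: `X := (ι → J[p ^ m])`, `ι := Σ i, O i ⧸ (p ^ m)` (finite), is flat (`.pi`);
`π : X →+ ∏ᵢ O i ⊗ J`, `w ↦ (∑_a ã ⊗ w (i, a))ᵢ` (`ã` a lift of `a`) is equivariant and its image is
the whole `p ^ m`-torsion (`S30Tate.exists_torsion_lift` + pure tensors `c ⊗ y`, `y ∈ J[p ^ m]`,
depend only on `c` mod `p ^ m`); `Y := π ⁻¹ (range Φ)` is a stable subgroup and
`Y → range Φ ≅ V ⧸ ker Φ → Q` is onto: `.subquotient`.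
-/

set_option autoImplicit false
set_option linter.style.haveILetI false
set_option linter.unusedSectionVars false

noncomputable section

namespace Fermat.Agent.S32

open Fermat.Agent.S30Tate Fermat.Agent.FlatMod
open scoped TensorProduct

local notation "GK" => (AlgebraicClosure ℚ ≃ₐ[ℚ] AlgebraicClosure ℚ)

section Factor

variable (O : Type) [CommRing O] {J : Type} [AddCommGroup J] (k : ℤ)

/-- The `k`-torsion of `O ⊗ J` is the image of `O ⊗ J[k]` (`k` an integer). -/
theorem tf_exists_lift [Module.Flat ℤ O] (t : O ⊗[ℤ] J) (ht : (k : O) • t = 0) :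
    ∃ z : O ⊗[ℤ] Submodule.torsionBy ℤ J k,
      (Submodule.torsionBy ℤ J k).subtype.baseChange O z = t := by
  have hex : Function.Exact (Submodule.torsionBy ℤ J k).subtype
      (k • (LinearMap.id : J →ₗ[ℤ] J)) := by
    intro y
    simp only [LinearMap.smul_apply, LinearMap.id_coe, id_eq, Submodule.coe_subtype,
      Set.mem_range, Subtype.exists, exists_prop, exists_eq_right, Submodule.mem_torsionBy_iff]
  have h1 := Module.Flat.lTensor_exact O hex
  have h2 : ((k • (LinearMap.id : J →ₗ[ℤ] J)).lTensor O) t = 0 := by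
    rw [LinearMap.lTensor_smul, LinearMap.lTensor_id, LinearMap.smul_apply, LinearMap.id_apply]
    rw [← ht, Int.cast_smul_eq_zsmul]
  obtain ⟨z, hz⟩ := (h1 t).mp h2
  exact ⟨z, hz⟩

/-- Pure tensors `r ⊗ y`, `r ∈ (k)`, `y ∈ J[k]`, vanish. -/
theorem tf_tmul_eq_zero {r : O} (hr : r ∈ Ideal.span {(k : O)})
    (y : Submodule.torsionBy ℤ J k) : r ⊗ₜ[ℤ] (y : J) = 0 := by
  obtain ⟨s, rfl⟩ := Ideal.mem_span_singleton'.1 hr
  have h1 : s * (k : O) = k • s := by rw [zsmul_eq_mul, mul_comm]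
  rw [h1, TensorProduct.smul_tmul]
  have := y.2
  rw [Submodule.mem_torsionBy_iff] at this
  rw [this, TensorProduct.tmul_zero]

variable [Fintype (O ⧸ Ideal.span {(k : O)})]

/-- The map `w ↦ ∑_c c̃ ⊗ w c` from `(O ⧸ k) → J[k]` to `O ⊗ J`. -/
def tfSum : ((O ⧸ Ideal.span {(k : O)}) → Submodule.torsionBy ℤ J k) →+ O ⊗[ℤ] J :=
  AddMonoidHom.mk' (fun w => ∑ c, (Quotient.out c : O) ⊗ₜ[ℤ] ((w c : Submodule.torsionBy ℤ J k) : J))
    (fun w w' => by
      simp only [Pi.add_apply, Submodule.coe_add, TensorProduct.tmul_add,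
        Finset.sum_add_distrib])

theorem tfSum_apply (w : (O ⧸ Ideal.span {(k : O)}) → Submodule.torsionBy ℤ J k) :
    tfSum O k w = ∑ c, (Quotient.out c : O) ⊗ₜ[ℤ] ((w c : Submodule.torsionBy ℤ J k) : J) := rfl

/-- The image of `tfSum` contains the image of `O ⊗ J[k]`. -/
theorem tf_exists_tfSum (z : O ⊗[ℤ] Submodule.torsionBy ℤ J k) :
    ∃ w, tfSum O k w = (Submodule.torsionBy ℤ J k).subtype.baseChange O z := by
  classical
  induction z with
  | zero => exact ⟨0, by rw [map_zero, map_zero]⟩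
  | tmul o y =>
    refine ⟨Pi.single (Ideal.Quotient.mk _ o) y, ?_⟩
    rw [tfSum_apply, LinearMap.baseChange_tmul, Submodule.subtype_apply]
    refine (Finset.sum_eq_single (Ideal.Quotient.mk (Ideal.span {(k : O)}) o) ?_ ?_).trans ?_
    rotate_left 2
    · rw [Pi.single_eq_same]
      have h1 : (Quotient.out (Ideal.Quotient.mk (Ideal.span {(k : O)}) o) : O) - o ∈
          Ideal.span {(k : O)} := by
        rw [← Ideal.Quotient.eq]
        exact Ideal.Quotient.mk_out _
      have h2 := tf_tmul_eq_zero O k h1 y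
      rw [TensorProduct.sub_tmul, sub_eq_zero] at h2
      exact h2
    · intro c _ hc
      rw [Pi.single_eq_of_ne hc, Submodule.coe_zero, TensorProduct.tmul_zero]
    · intro h
      exact absurd (Finset.mem_univ _) h
  | add x y hx hy =>
    obtain ⟨w, hw⟩ := hx
    obtain ⟨w', hw'⟩ := hy
    exact ⟨w + w', by rw [map_add, map_add, hw, hw']⟩

/-- `tfSum` is Galois-equivariant. -/
theorem tfSum_gal [DistribMulAction GK J] (σ : GK)
    (w w' : (O ⧸ Ideal.span {(k : O)}) → Submodule.torsionBy ℤ J k)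
    (hw : ∀ c, ((w' c : Submodule.torsionBy ℤ J k) : J) = σ • ((w c : Submodule.torsionBy ℤ J k) : J)) :
    tfSum O k w' = galBC O J σ (tfSum O k w) := by
  rw [tfSum_apply, tfSum_apply, map_sum]
  refine Finset.sum_congr rfl (fun c _ => ?_)
  rw [galBC_apply, LinearMap.baseChange_tmul, galLinZ_apply, hw]

end Factor

/-- **P4.** -/
theorem isFlat_of_tensor_family {p : ℕ} [Fact p.Prime] (m : ℕ)
    {J : Type} [AddCommGroup J] [DistribMulAction GK J]
    (hW : ∃ (H : Type) (_ : CommRing H) (_ : HopfAlgebra (GaloisRep.ratLocalizedAt p) H),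
      Module.Finite (GaloisRep.ratLocalizedAt p) H ∧ Module.Flat (GaloisRep.ratLocalizedAt p) H ∧
      Coalgebra.IsCocomm (GaloisRep.ratLocalizedAt p) H ∧
      ∃ e : WithConv (H →ₐ[GaloisRep.ratLocalizedAt p] AlgebraicClosure ℚ) ≃
          ↥(Submodule.torsionBy ℤ J ((p : ℤ) ^ m)),
        (∀ f g, e (f * g) = e f + e g) ∧
        ∀ (σ : GK) (f g : WithConv (H →ₐ[GaloisRep.ratLocalizedAt p] AlgebraicClosure ℚ)),
          (∀ h : H, g h = σ (f h)) → ((e g : J)) = σ • (e f : J))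
    {d : ℕ} (O : Fin d → Type) [∀ i, CommRing (O i)] [∀ i, Module.Flat ℤ (O i)]
    (hfin : ∀ i, Finite (O i ⧸ Ideal.span {(p : O i) ^ m}))
    {V Q : Type} [AddCommGroup V] [AddCommGroup Q] (a : GK → V → V) (act : GK → Q → Q)
    (Φ : V →+ ∀ i, O i ⊗[ℤ] J)
    (hΦ : ∀ (σ : GK) (v : V) (i : Fin d), Φ (a σ v) i = galBC (O i) J σ (Φ v i))
    (htors : ∀ (v : V) (i : Fin d), (p : O i) ^ m • Φ v i = 0)
    (q : V →+ Q) (hq : Function.Surjective q) (hqa : ∀ (σ : GK) (v : V), q (a σ v) = act σ (q v))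
    (hker : ∀ v : V, Φ v = 0 → q v = 0) :
    Fermat.Agent.FlatMod.IsFlatGaloisModule p Q act := by
  classical
  set k : ℤ := (p : ℤ) ^ m with hk
  have hkO : ∀ i, ((k : ℤ) : O i) = (p : O i) ^ m := fun i => by
    rw [hk]; push_cast; rfl
  haveI : ∀ i, Finite (O i ⧸ Ideal.span {((k : ℤ) : O i)}) := fun i => by
    rw [hkO i]; exact hfin i
  letI : ∀ i, Fintype (O i ⧸ Ideal.span {((k : ℤ) : O i)}) := fun i => Fintype.ofFinite _
  -- the flat module `W = J[p ^ m]`
  let actW : GK → Submodule.torsionBy ℤ J k → Submodule.torsionBy ℤ J k := fun σ w =>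
    ⟨σ • (w : J), by
      have := w.2
      rw [Submodule.mem_torsionBy_iff] at this ⊢
      have h1 := map_zsmul (DistribSMul.toAddMonoidHom J σ) k (w : J)
      rw [DistribSMul.toAddMonoidHom_apply, DistribSMul.toAddMonoidHom_apply] at h1
      rw [← h1, this, smul_zero]⟩
  have hWflat : IsFlatGaloisModule p (Submodule.torsionBy ℤ J k) actW := by
    obtain ⟨H, i1, i2, h1, h2, h3, e, he1, he2⟩ := hW
    exact ⟨H, i1, i2, h1, h2, h3, e, he1, fun σ f g hfg => Subtype.ext (he2 σ f g hfg)⟩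
  -- the flat module `X`
  have hX := hWflat.pi (Σ i : Fin d, O i ⧸ Ideal.span {((k : ℤ) : O i)})
  -- the map `π`
  let π : ((Σ i : Fin d, O i ⧸ Ideal.span {((k : ℤ) : O i)}) → Submodule.torsionBy ℤ J k) →+
      ∀ i, O i ⊗[ℤ] J :=
    AddMonoidHom.mk' (fun x i => tfSum (O i) k (fun c => x ⟨i, c⟩)) (fun x x' => by
      funext i
      have : (fun c : O i ⧸ Ideal.span {((k : ℤ) : O i)} => (x + x') ⟨i, c⟩) =
          (fun c => x ⟨i, c⟩) + (fun c => x' ⟨i, c⟩) := rfl
      show tfSum (O i) k (fun c => (x + x') ⟨i, c⟩) = _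
      rw [this, map_add]
      rfl)
  have hπ : ∀ x i, π x i = tfSum (O i) k (fun c => x ⟨i, c⟩) := fun _ _ => rfl
  have hπgal : ∀ (σ : GK) x, π (fun j => actW σ (x j)) = fun i => galBC (O i) J σ (π x i) := by
    intro σ x
    funext i
    rw [hπ, hπ]
    exact tfSum_gal (O i) k σ _ _ (fun c => rfl)
  -- every `p ^ m`-torsion family is in the image of `π`
  have hπsurj : ∀ t : ∀ i, O i ⊗[ℤ] J, (∀ i, (p : O i) ^ m • t i = 0) → ∃ x, π x = t := by
    intro t ht
    have h1 : ∀ i, ∃ w, tfSum (O i) k w = t i := by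
      intro i
      obtain ⟨z, hz⟩ := tf_exists_lift (O i) k (t i) (by rw [hkO i]; exact ht i)
      obtain ⟨w, hw⟩ := tf_exists_tfSum (O i) k z
      exact ⟨w, hw.trans hz⟩
    choose w hw using h1
    refine ⟨fun j => w j.1 j.2, ?_⟩
    funext i
    rw [hπ]
    exact hw i
  -- the subgroup `Y`
  let Y : AddSubgroup ((Σ i : Fin d, O i ⧸ Ideal.span {((k : ℤ) : O i)}) →
      Submodule.torsionBy ℤ J k) := (AddMonoidHom.range Φ).comap π
  have hY : ∀ σ : GK, ∀ x ∈ Y, (fun j => actW σ (x j)) ∈ Y := by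
    rintro σ x ⟨v, hv⟩
    refine ⟨a σ v, ?_⟩
    rw [hπgal]
    funext i
    rw [hΦ, hv]
  -- the map `Y → Q`
  have hex : ∀ y : Y, ∃ v : V, Φ v = π y.1 := fun y => y.2
  choose vOf hvOf using hex
  have hqeq : ∀ v v' : V, Φ v = Φ v' → q v = q v' := by
    intro v v' h
    have h1 : Φ (v - v') = 0 := by rw [map_sub, h, sub_self]
    have h2 := hker _ h1
    rw [map_sub, sub_eq_zero] at h2
    exact h2
  let ψ : Y →+ Q := AddMonoidHom.mk' (fun y => q (vOf y)) (fun y y' => by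
    rw [← map_add]
    apply hqeq
    rw [map_add, hvOf, hvOf, hvOf]
    exact map_add π y.1 y'.1)
  have hψ : ∀ y, ψ y = q (vOf y) := fun _ => rfl
  refine hX.subquotient Y hY ψ ?_ ?_
  · intro z
    obtain ⟨v, rfl⟩ := hq z
    obtain ⟨x, hx⟩ := hπsurj (Φ v) (htors v)
    refine ⟨⟨x, ⟨v, hx.symm⟩⟩, ?_⟩
    rw [hψ]
    apply hqeq
    rw [hvOf]
    exact hx
  · intro σ y
    rw [hψ, hψ, ← hqa]
    apply hqeq
    rw [hvOf]
    show π (fun j => actW σ (y.1 j)) = _
    rw [hπgal]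
    funext i
    rw [hΦ, hvOf]

end Fermat.Agent.S32
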