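import Fermat.Agent.S32.DatumPoints
import Fermat.Agent.S32.PlaneRep
import Fermat.Agent.S32.LatticeEval
import Fermat.Agent.S32.TensorFlat
import Fermat.Agent.S32.Small
import Fermat.Agent.Lib.Cyclo.CharData
import Fermat.Agent.F3.FrobDensityLiteFinal
import Fermat.Agent.Lib.FlatMod.Defs

/-!
# S32 from S19: assembly (owner: helper62)

`isFlatAt_of_s19`: the frozen statement of S32 (the representation of a Hecke–Galois datum is flat
at `p` when `p ∤ N`) from the frozen statement of S19 (`S19Statement`) and the six interface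
propositions of cluster A at level `N`.

Route: `T` is reduced and separated, uniformly `p`-adically, by finitely many local points
`ψ_i : T → O_i` in complete discrete valuation rings (`S32/DatumPoints`).  At every point,
`O_i ⊗_T V` embeds `G_ℚ`-equivariantly, with saturated image, in the Tate eigen-lattice `Λ_i` of
`O_i ⊗ J₀(N)` (`S32/PlaneRep`, `S32/LatticeEval`).  Evaluation at level `m` gives an equivariant
map `Φ : V → ∏_i O_i ⊗ J₀(N)` with values in the `p ^ m`-torsion and kernel in `p ^ r V ⊂ I V`;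
so `V / I V` is a quotient of a subgroup of a finite power of `J₀(N)[p ^ m]` (`S32/TensorFlat`).
-/

set_option autoImplicit false
set_option linter.unusedSectionVars false
set_option linter.style.haveILetI false
set_option linter.overlappingInstances false

namespace Fermat.Agent.S32

open Polynomial Module IsLocalRing ModularCurve Fermat.Agent.DVRPoints Fermat.Agent.S30
  Fermat.Agent.S30Tate Fermat.Agent.TraceRigidity
open scoped TensorProduct

local notation "GQ" => (AlgebraicClosure ℚ ≃ₐ[ℚ] AlgebraicClosure ℚ)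

/-- The frozen statement of S19, as a proposition. -/
def S19Statement : Prop :=
  ∀ (p : ℕ) [NeZero p] (ℓ : ℕ) [Fact ℓ.Prime] (_hℓp : ¬ ℓ ∣ p) (k : ℕ),
    ∃ (H : Type) (_ : CommRing H) (_ : HopfAlgebra (GaloisRep.ratLocalizedAt ℓ) H),
      Module.Finite (GaloisRep.ratLocalizedAt ℓ) H ∧ Module.Flat (GaloisRep.ratLocalizedAt ℓ) H ∧
      Coalgebra.IsCocomm (GaloisRep.ratLocalizedAt ℓ) H ∧
      ∃ e : WithConv (H →ₐ[GaloisRep.ratLocalizedAt ℓ] AlgebraicClosure ℚ) ≃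
          ↥(Submodule.torsionBy ℤ (JZero p) ((ℓ : ℤ) ^ k)),
        (∀ f g, e (f * g) = e f + e g) ∧
        ∀ (σ : AlgebraicClosure ℚ ≃ₐ[ℚ] AlgebraicClosure ℚ)
          (f g : WithConv (H →ₐ[GaloisRep.ratLocalizedAt ℓ] AlgebraicClosure ℚ)),
          (∀ h : H, g h = σ (f h)) → ((e g : JZero p)) = σ • (e f : JZero p)

variable {p : ℕ} {N : ℕ} [NeZero N] {S : Finset ℕ}
  {𝒪 : Type} [CommRing 𝒪] [IsDomain 𝒪] [IsDiscreteValuationRing 𝒪]
  [IsAdicComplete (IsLocalRing.maximalIdeal 𝒪) 𝒪]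
  {θ : CuspForm.heckeAlgebra N 2 (↑S : Set ℕ) →+* IsLocalRing.ResidueField 𝒪}
  {T : Type} [CommRing T] [IsLocalRing T] [IsNoetherianRing T]
  [IsAdicComplete (IsLocalRing.maximalIdeal T) T] [Algebra 𝒪 T] [IsLocalHom (algebraMap 𝒪 T)]
  [Module.Finite 𝒪 T] [Module.Free 𝒪 T]

/-- The map from `V` to the torsion of `O ⊗ J₀(N)` at one point of `T`. -/
theorem exists_pointMap
    (hE : EigenclassPadic N) (hFin : F3.TorsionFinite N)
    (hUnr : F3.TorsionUnramified N) (hFrob : F3.TorsionFrobQuadratic N)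
    (hOpen : F3.TorsionOpenStab N) (hComm : F3.HeckeGaloisComm N)
    (hp : p.Prime) (hpS : p ∈ S) (hNS : ∀ q : ℕ, q.Prime → q ∣ N → q ∈ S)
    (H : CuspForm.HeckeGaloisRepDatum N (↑S : Set ℕ) 𝒪 θ T)
    (b : Basis (Fin 2) T H.ρ.V) (g : Fin 2 × Fin 2 → GQ)
    (hg : IsUnit (coordMat (fun σ => LinearMap.toMatrix b b (H.ρ.ρ σ)) g).det)
    (P : DVRPt p T) (hloc : IsLocalHom P.χ) (m : ℕ) :
    ∃ Φ : H.ρ.V →+ P.O ⊗[ℤ] JZero N,
      (∀ (σ : GQ) (v : H.ρ.V), Φ (H.ρ.ρ σ v) = galBC P.O (JZero N) σ (Φ v)) ∧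
      (∀ v : H.ρ.V, (p : P.O) ^ m • Φ v = 0) ∧
      (∀ v : H.ρ.V, Φ v = 0 → ∀ a : Fin 2, P.χ (b.repr v a) ∈ maximalIdeal P.O ^ m) := by
  classical
  haveI : Fact p.Prime := ⟨hp⟩
  letI : Algebra T P.O := P.χ.toAlgebra
  set ρi : GaloisRepAdic P.O := H.ρ.baseChangeAlong P.χ hloc with hρi
  set bi : Basis (Fin 2) P.O ρi.V := Algebra.TensorProduct.basis P.O b with hbi
  have hmat : ∀ τ, LinearMap.toMatrix bi bi (ρi.ρ τ) =
      (LinearMap.toMatrix b b (H.ρ.ρ τ)).map P.χ := fun τ =>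
    LinearMap.toMatrix_baseChange P.O (H.ρ.ρ τ) b b
  have hgi : IsUnit (coordMat (fun τ => LinearMap.toMatrix bi bi (ρi.ρ τ)) g).det := by
    have h1 : coordMat (fun τ => LinearMap.toMatrix bi bi (ρi.ρ τ)) g =
        P.χ.mapMatrix (coordMat (fun τ => LinearMap.toMatrix b b (H.ρ.ρ τ)) g) := by
      ext ab j
      simp only [coordMat, Matrix.of_apply, RingHom.mapMatrix_apply, Matrix.map_apply]
      rw [hmat]
      rfl
    rw [h1, ← RingHom.map_det]
    exact hg.map P.χ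
  set χ : CuspForm.heckeAlgebra N 2 (↑S : Set ℕ) →+* P.O := P.χ.comp H.π with hχ
  obtain ⟨L, ev, hev_eq, hev_tors, hev_ker⟩ :=
    exists_frobLattice_eval N hE hFin hUnr hFrob hOpen hComm p S hpS hNS P.O P.hp χ
  have hfrob_i : ∀ ℓ : ℕ, ℓ.Prime → ℓ ∉ S →
      ∀ A : ValuationSubring (AlgebraicClosure ℚ), A.LiesOverPrime ℓ →
        ∀ σ : GQ, A.IsFrobeniusAt σ ℓ →
          LinearMap.charpoly (ρi.ρ σ) =
            X ^ 2 - C (heckeEigenvalue χ ℓ) * X + C ((ℓ : P.O)) := by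
    intro ℓ hℓ hℓS A hA σ hσ
    have hℓN : ¬ ℓ ∣ N := fun h => hℓS (hNS ℓ hℓ h)
    have hℓS' : ℓ ∉ (↑S : Set ℕ) := fun h => hℓS (Finset.mem_coe.1 h)
    have h1 : LinearMap.charpoly (ρi.ρ σ) = (LinearMap.charpoly (H.ρ.ρ σ)).map P.χ :=
      LinearMap.charpoly_baseChange (H.ρ.ρ σ) P.O
    rw [h1, H.charpoly_frob ℓ hℓ hℓN hℓS' A hA σ hσ, heckeEigenvalue_eq χ hℓ hℓN hℓS']
    simp [Polynomial.map_sub, Polynomial.map_add, Polynomial.map_mul, Polynomial.map_pow, hχ]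
  obtain ⟨f, hfinj, hfeq, hfsat⟩ := exists_embedding_of_frobLattice F3.frobDensityLite hpS
    (heckeEigenvalue χ) L (Fermat.Agent.Cyclo.cycloCharData (p := p) (𝒪 := P.O) P.hp)
    ρi bi g hgi hfrob_i
  let ι : H.ρ.V →+ ρi.V :=
    { toFun := fun v => ((1 : P.O) ⊗ₜ[T] v : P.O ⊗[T] H.ρ.V)
      map_zero' := TensorProduct.tmul_zero _ _
      map_add' := fun x y => TensorProduct.tmul_add _ x y }
  have hι : ∀ (σ : GQ) (v : H.ρ.V), ι (H.ρ.ρ σ v) = ρi.ρ σ (ι v) := fun σ v => rfl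
  have hp0 : (p : P.O) ^ m ≠ 0 := pow_ne_zero m (Nat.cast_ne_zero.2 hp.ne_zero)
  refine ⟨(ev m).toAddMonoidHom.comp (f.toAddMonoidHom.comp ι), ?_, ?_, ?_⟩
  · intro σ v
    show ev m (f (ι (H.ρ.ρ σ v))) = galBC P.O (JZero N) σ (ev m (f (ι v)))
    rw [hι, hfeq, hev_eq]
  · intro v
    exact hev_tors m _
  · intro v hv a
    have hv' : ev m (f (ι v)) = 0 := hv
    obtain ⟨y, hy⟩ := hev_ker m _ hv'
    obtain ⟨w, hw⟩ := hfsat ((p : P.O) ^ m) y hp0 ⟨ι v, by rw [hy]⟩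
    have h2 : ι v = (p : P.O) ^ m • w := by
      apply hfinj
      rw [hy, map_smul, hw]
    have h3 : bi.repr (ι v) a = P.χ (b.repr v a) := by
      show (Algebra.TensorProduct.basis P.O b).repr ((1 : P.O) ⊗ₜ[T] v) a = _
      rw [Algebra.TensorProduct.basis_repr_tmul, one_smul]
      rfl
    rw [← h3, h2, map_smul, Finsupp.smul_apply, smul_eq_mul]
    exact Ideal.mul_mem_right _ _ (Ideal.pow_mem_pow P.hp m)

/-- **S32 from S19** and the interface propositions of cluster A at level `N`. -/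
theorem isFlatAt_of_s19 (h19 : S19Statement)
    (hE : EigenclassPadic N) (hFin : F3.TorsionFinite N)
    (hUnr : F3.TorsionUnramified N) (hFrob : F3.TorsionFrobQuadratic N)
    (hOpen : F3.TorsionOpenStab N) (hComm : F3.HeckeGaloisComm N)
    [Finite (IsLocalRing.ResidueField 𝒪)] [CharZero 𝒪]
    (hp : p.Prime) (hp𝒪 : (p : 𝒪) ∈ IsLocalRing.maximalIdeal 𝒪) (hpN : ¬ p ∣ N)
    (hpS : p ∈ S) (hNS : ∀ q : ℕ, q.Prime → q ∣ N → q ∈ S)
    (H : CuspForm.HeckeGaloisRepDatum N (↑S : Set ℕ) 𝒪 θ T) :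
    H.ρ.IsFlatAt p := by
  classical
  haveI : Fact p.Prime := ⟨hp⟩
  refine ⟨finite_residueField_of_surjective H.residue_surjective, fun I hI => ?_⟩
  have hpT : (p : T) ∈ IsLocalRing.maximalIdeal T := by
    have h1 : (p : T) = algebraMap 𝒪 T (p : 𝒪) := by simp
    rw [h1, IsLocalRing.mem_maximalIdeal, mem_nonunits_iff]
    intro hu
    exact (IsLocalRing.mem_maximalIdeal _).1 hp𝒪 (isUnit_of_map_unit (algebraMap 𝒪 T) _ hu)
  obtain ⟨r, hr⟩ := exists_natCast_pow_mem_of_finite p hp hpT I hI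
  obtain ⟨d, P, hP⟩ := dvrSeparation_of_datum hp hNS H
  obtain ⟨m, hm⟩ := hP r
  set b : Basis (Fin 2) T H.ρ.V := Module.finBasisOfFinrankEq T H.ρ.V H.ρ.finrank_eq with hb
  obtain ⟨g, hg⟩ := exists_isUnit_det_coordMat H.ρ H.residual_absIrr b
  choose Φ hΦeq hΦtors hΦker using fun i : Fin d =>
    exists_pointMap hE hFin hUnr hFrob hOpen hComm hp hpS hNS H b g hg (P i)
      (isLocalHom_of_dvrPt (𝒪 := 𝒪) hp (P i)) m
  have hfin : ∀ i : Fin d, Finite ((P i).O ⧸ Ideal.span {(p : (P i).O) ^ m}) := by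
    intro i
    have h1 := finite_quotient_span_natCast (P i).O (p ^ m) (pow_ne_zero m hp.ne_zero)
    rwa [Nat.cast_pow] at h1
  refine isFlat_of_tensor_family (p := p) m (J := JZero N) (h19 N p hpN m)
    (fun i => (P i).O) hfin (fun σ v => H.ρ.ρ σ v) (fun σ x => H.ρ.levelAction I σ x)
    (AddMonoidHom.pi Φ) (fun σ v i => hΦeq i σ v) (fun v i => hΦtors i v)
    (Submodule.mkQ (I • (⊤ : Submodule T H.ρ.V))).toAddMonoidHom
    (Submodule.mkQ_surjective _) (fun σ v => rfl) ?_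
  intro v hv
  have h1 : ∀ a : Fin 2, ∃ Y : T, b.repr v a = (p : T) ^ r * Y := fun a =>
    hm _ fun i => hΦker i v (congrFun hv i) a
  choose Y hY using h1
  show Submodule.mkQ (I • (⊤ : Submodule T H.ρ.V)) v = 0
  rw [Submodule.mkQ_apply, Submodule.Quotient.mk_eq_zero, ← b.sum_repr v]
  refine Submodule.sum_mem _ fun a _ => ?_
  rw [hY a]
  exact Submodule.smul_mem_smul (Ideal.mul_mem_right _ _ hr) Submodule.mem_top

end Fermat.Agent.S32
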