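import Fermat.Agent.S30.WilesMain

set_option autoImplicit false
set_option linter.unusedSectionVars false

/-!
# Wiles' algebra, sub-lattice form (owner: helper62; adapted from `S30/WilesMain.lean`,
`S30/WilesPlane.lean` of helper68)

`Λ ≠ 0` finite free over a discrete valuation ring `R` of characteristic zero, `G` acting on `Λ`
with the quadratic relation `QuadRel ρ ε t`, and an involution `c ∈ G` with `ε c = -1`.  Then
either `Λ` contains a `G`-stable line, or a saturated `G`-stable submodule `M`, free of rank two,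
on which the characteristic polynomial of `ρ g` is `X² - t(g) X + ε(g)` for every `g`
(`line_or_plane_of_quadRel`).
-/

namespace Fermat.Agent.S32

open Module Polynomial IsLocalRing Fermat.Agent.S30

section Concl

variable {R : Type} [CommRing R] [IsDomain R] [IsDiscreteValuationRing R]
  {G : Type*} [Group G]
  {Λ : Type} [AddCommGroup Λ] [Module R Λ] [Module.Free R Λ] [Module.Finite R Λ]

/-- A saturated stable plane in `Λ` with characteristic polynomials `X² - t(g) X + ε(g)`. -/
def PlaneConclusion (ρ : G →* Module.End R Λ) (ε : G →* Rˣ) (t : G → R) : Prop :=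
  ∃ (M : Submodule R Λ) (hM : ∀ (g : G) (x : Λ), x ∈ M → ρ g x ∈ M),
    IsSatSub M ∧ Module.finrank R M = 2 ∧
    ∀ g : G, LinearMap.charpoly (restrictRepR ρ M hM g) =
      X ^ 2 - C (t g) * X + C ((ε g : Rˣ) : R)

end Concl

section Plane

variable {R : Type} [CommRing R] [IsDomain R] [IsDiscreteValuationRing R] [CharZero R]
  {G : Type*} [Group G]
  {Λ : Type} [AddCommGroup Λ] [Module R Λ] [Module.Free R Λ] [Module.Finite R Λ]

/-- **Plane case.** -/
theorem planeConclusion_of_plane (ρ : G →* Module.End R Λ) (ε : G →* Rˣ) (t : G → R)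
    (hQ : QuadRel ρ ε t) (c : G) (hc : c * c = 1) (htc : t c = 0)
    (s : R) (hs : s * s = 1)
    (M : Submodule R Λ) (hMsat : IsSatSub M) (hMstab : ∀ (g : G) (x : Λ), x ∈ M → ρ g x ∈ M)
    (u w : Λ) (huM : u ∈ M) (hwM : w ∈ M) (hu0 : u ≠ 0) (hw0 : w ≠ 0)
    (hcu : ρ c u = s • u) (hcw : ρ c w = (-s) • w)
    (hplus : ∀ x ∈ M, ρ c x = s • x → x ∈ Submodule.span R {u})
    (hminus : ∀ x ∈ M, ρ c x = (-s) • x → x ∈ Submodule.span R {w}) :
    PlaneConclusion ρ ε t := by
  classical
  have h2R : (2 : R) ≠ 0 := two_ne_zero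
  have h2 : ∀ y : Λ, (2 : R) • y = 0 → y = 0 := fun y hy =>
    (smul_eq_zero.mp hy).resolve_left h2R
  have hs' : (-s) * (-s) = 1 := by rw [neg_mul_neg, hs]
  -- finrank M = 2
  have hli : LinearIndependent R ![(⟨u, huM⟩ : M), ⟨w, hwM⟩] := by
    rw [LinearIndependent.pair_iff]
    intro a b hab
    have hab' : a • u + b • w = 0 := by
      have := congrArg (Subtype.val) hab
      simpa using this
    have h1 : a • u - b • w = 0 := by
      have := congrArg (fun y => s • ρ c y) hab'
      simp only [map_add, map_smul, hcu, hcw, smul_zero, map_zero] at this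
      rw [← this]
      simp only [smul_add, smul_smul]
      have e1 : s * (a * s) = a := by linear_combination a * hs
      have e2 : s * (b * -s) = -b := by linear_combination -b * hs
      rw [e1, e2, neg_smul, sub_eq_add_neg]
    have ha : (2 : R) • (a • u) = 0 := by
      have : (2 : R) • (a • u) = (a • u + b • w) + (a • u - b • w) := by
        rw [two_smul]; abel
      rw [this, hab', h1, add_zero]
    have ha0 : a = 0 := (smul_eq_zero.mp (h2 _ ha)).resolve_right hu0
    refine ⟨ha0, ?_⟩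
    rw [ha0, zero_smul, zero_add] at hab'
    exact (smul_eq_zero.mp hab').resolve_right hw0
  have hge : 2 ≤ Module.finrank R M := by
    have := hli.fintype_card_le_finrank
    simpa using this
  have hmem2 : ∀ x ∈ M, (2 : R) • x ∈ Submodule.span R ((({u, w} : Finset Λ)) : Set Λ) := by
    intro x hx
    have hcx : ρ c x ∈ M := hMstab c x hx
    have hp : x + s • ρ c x ∈ Submodule.span R {u} := by
      apply hplus _ (M.add_mem hx (M.smul_mem s hcx))
      rw [map_add, map_smul, rho_invol_apply ρ hc, smul_add, smul_smul, hs, one_smul, add_comm]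
    have hm : x + (-s) • ρ c x ∈ Submodule.span R {w} := by
      apply hminus _ (M.add_mem hx (M.smul_mem (-s) hcx))
      rw [map_add, map_smul, rho_invol_apply ρ hc, smul_add, smul_smul, hs', one_smul, add_comm]
    have e : (2 : R) • x = (x + s • ρ c x) + (x + (-s) • ρ c x) := by
      rw [two_smul, neg_smul]; abel
    rw [e]
    refine Submodule.add_mem _ ?_ ?_
    · exact Submodule.span_mono (by simp) hp
    · exact Submodule.span_mono (by simp) hm
  have hle : Module.finrank R M ≤ 2 := by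
    let P : Submodule R Λ := Submodule.span R ((({u, w} : Finset Λ)) : Set Λ)
    let f : M →ₗ[R] P := LinearMap.codRestrict P ((2 : R) • M.subtype) (fun x => hmem2 x x.2)
    have hf : Function.Injective f := by
      intro x y hxy
      have h : (2 : R) • (x : Λ) = (2 : R) • (y : Λ) := congrArg (fun z : P => (z : Λ)) hxy
      have : (2 : R) • ((x : Λ) - y) = 0 := by rw [smul_sub, h, sub_self]
      exact Subtype.ext (sub_eq_zero.mp (h2 _ this))
    calc Module.finrank R M ≤ Module.finrank R P := LinearMap.finrank_le_finrank_of_injective hf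
      _ ≤ ({u, w} : Finset Λ).card := finrank_span_finset_le_card _
      _ ≤ 2 := Finset.card_le_two
  have hfin : Module.finrank R M = 2 := le_antisymm hle hge
  have : Nontrivial M := ⟨⟨⟨u, huM⟩, 0, fun h => hu0 (congrArg Subtype.val h)⟩⟩
  refine ⟨M, hMstab, hMsat, hfin, ?_⟩
  intro g
  apply charpoly_eq_of_quad hfin _ _ _ (quadRel_restrict hQ M hMstab g) _ h2R
  intro r σ hrσ
  -- apply to `u` and `w`
  have hu1 : r • ρ g u = σ • u := by
    have := congrArg (fun F : Module.End R M => ((F ⟨u, huM⟩ : M) : Λ)) hrσ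
    simpa using this
  have hw1 : r • ρ g w = σ • w := by
    have := congrArg (fun F : Module.End R M => ((F ⟨w, hwM⟩ : M) : Λ)) hrσ
    simpa using this
  have eu := hQ.sign_eigen hc htc h2 s hs g u hcu
  have ew := hQ.sign_eigen hc htc h2 (-s) hs' g w hcw
  have eu1 : r • (ρ g u + s • ρ c (ρ g u)) = σ • u + s • ρ c (σ • u) := by
    rw [smul_add, smul_comm r s, ← map_smul (ρ c), hu1]
  have eu' : (r * (t g + s * t (c * g))) • u = (2 * σ) • u := by
    rw [mul_smul, ← eu, eu1, map_smul, hcu, smul_smul, smul_smul, ← add_smul]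
    congr 1
    linear_combination σ * hs
  have ew1 : r • (ρ g w + (-s) • ρ c (ρ g w)) = σ • w + (-s) • ρ c (σ • w) := by
    rw [smul_add, smul_comm r (-s), ← map_smul (ρ c), hw1]
  have ew' : (r * (t g + -s * t (c * g))) • w = (2 * σ) • w := by
    rw [mul_smul, ← ew, ew1, map_smul, hcw, smul_smul, smul_smul, ← add_smul]
    congr 1
    linear_combination σ * hs
  have eu'' := smul_left_injective R hu0 eu'
  have ew'' := smul_left_injective R hw0 ew'

  have h4 : (2 : R) * (r * t g) = 2 * (2 * σ) := by linear_combination eu'' + ew''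
  exact mul_left_cancel₀ h2R h4

end Plane

section Main

variable {R : Type} [CommRing R] [IsDomain R] [IsDiscreteValuationRing R] [CharZero R]
  {G : Type*} [Group G]
  {Λ : Type} [AddCommGroup Λ] [Module R Λ] [Module.Free R Λ] [Module.Finite R Λ] [Nontrivial Λ]

omit [Nontrivial Λ] in
/-- One step of the case analysis: from an `s`-eigenvector `u ≠ 0` of `ρ(c)` we get either the
line case, or a nonzero `(-s)`-eigenvector in the saturated orbit module of `u`. -/
theorem line_or_eigen_sub (ρ : G →* Module.End R Λ) (ε : G →* Rˣ) (t : G → R)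
    (hQ : QuadRel ρ ε t) (c : G) (hc : c * c = 1) (htc : t c = 0)
    (s : R) (hs : s * s = 1) (u : Λ) (hu0 : u ≠ 0) (hcu : ρ c u = s • u) :
    (∃ u₁ : Λ, u₁ ≠ 0 ∧ ∀ g : G, ρ g u₁ ∈ Submodule.span R {u₁}) ∨
      ∃ w ∈ satSub (gSpan ρ u), w ≠ 0 ∧ ρ c w = (-s) • w := by
  classical
  have h2R : (2 : R) ≠ 0 := two_ne_zero
  by_cases hex : ∃ w ∈ satSub (gSpan ρ u), w ≠ 0 ∧ ρ c w = (-s) • w
  · exact Or.inr hex
  · left
    simp only [not_exists, not_and] at hex
    have hMstab : ∀ (g : G) (x : Λ), x ∈ satSub (gSpan ρ u) → ρ g x ∈ satSub (gSpan ρ u) :=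
      fun g x hx => map_mem_satSub (ρ g) (gSpan_stable ρ u g) hx
    -- every element of `M` is an `s`-eigenvector
    have hall : ∀ x ∈ satSub (gSpan ρ u), x ∈ satSub (Submodule.span R {u}) := by
      intro x hx
      have hcx : ρ c x ∈ satSub (gSpan ρ u) := hMstab c x hx
      have hm : x + (-s) • ρ c x ∈ satSub (gSpan ρ u) :=
        Submodule.add_mem _ hx (Submodule.smul_mem _ _ hcx)
      have hm0 : x + (-s) • ρ c x = 0 := by
        by_contra hne
        refine hex _ hm hne ?_
        rw [map_add, map_smul, rho_invol_apply ρ hc, smul_add, smul_smul, neg_mul_neg, hs,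
          one_smul, add_comm]
      have hcx' : ρ c x = s • x := by
        have h1 : x = s • ρ c x := by
          rw [neg_smul, ← sub_eq_add_neg, sub_eq_zero] at hm0
          exact hm0
        conv_rhs => rw [h1]
        rw [smul_smul, hs, one_smul]
      exact eigen_mem_satSub_span hQ hc htc h2R s hs u hcu x hx hcx'
    obtain ⟨r, u₁, hr, hru, hprim⟩ := exists_primVec_of_ne_zero (R := R) hu0
    have hu₁0 : u₁ ≠ 0 := by
      rintro rfl
      rw [smul_zero] at hru
      exact hu0 hru
    have hle : satSub (Submodule.span R {u}) ≤ Submodule.span R {u₁} := by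
      rw [← hprim.satSub_span]
      apply satSub_mono
      rw [Submodule.span_singleton_le_iff_mem, hru]
      exact Submodule.smul_mem _ _ (Submodule.mem_span_singleton_self u₁)
    have hu₁M : u₁ ∈ satSub (gSpan ρ u) := by
      apply isSatSub_satSub _ r u₁ hr
      rw [← hru]
      exact le_satSub _ (mem_gSpan_self ρ u)
    exact ⟨u₁, hu₁0, fun g => hle (hall _ (hMstab g u₁ hu₁M))⟩

/-- **Wiles' algebra, sub-lattice form.** -/
theorem line_or_plane_of_quadRel (ρ : G →* Module.End R Λ) (ε : G →* Rˣ) (t : G → R)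
    (hQ : QuadRel ρ ε t) (c : G) (hc : c * c = 1) (hεc : ε c = -1) :
    (∃ u₁ : Λ, u₁ ≠ 0 ∧ ∀ g : G, ρ g u₁ ∈ Submodule.span R {u₁}) ∨ PlaneConclusion ρ ε t := by
  classical
  have h2R : (2 : R) ≠ 0 := two_ne_zero
  obtain ⟨x₀, hx₀⟩ := exists_ne (0 : Λ)
  have htc : t c = 0 :=
    hQ.t_invol hc hεc x₀ (fun r hr => (smul_eq_zero.mp hr).resolve_right hx₀)
  -- a nonzero eigenvector of `ρ c`
  have hex : ∃ (s : R) (u : Λ), s * s = 1 ∧ u ≠ 0 ∧ ρ c u = s • u := by
    by_cases h1 : x₀ + ρ c x₀ = 0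
    · refine ⟨-1, x₀ + (-1 : R) • ρ c x₀, by ring, ?_, ?_⟩
      · intro h
        have : (2 : R) • x₀ = 0 := by
          have e : (2 : R) • x₀ = (x₀ + ρ c x₀) + (x₀ + (-1 : R) • ρ c x₀) := by
            rw [two_smul, neg_one_smul]; abel
          rw [e, h1, h, add_zero]
        exact hx₀ ((smul_eq_zero.mp this).resolve_left h2R)
      · rw [map_add, map_smul, rho_invol_apply ρ hc, smul_add, smul_smul]
        simp only [neg_mul_neg, one_smul, mul_one]
        rw [add_comm]
    · refine ⟨1, x₀ + ρ c x₀, by ring, h1, ?_⟩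
      rw [map_add, rho_invol_apply ρ hc, one_smul, add_comm]
  obtain ⟨s, u, hs, hu0, hcu⟩ := hex
  have hs' : (-s) * (-s) = 1 := by rw [neg_mul_neg, hs]
  rcases line_or_eigen_sub ρ ε t hQ c hc htc s hs u hu0 hcu with h | ⟨w, hwM, hw0, hcw⟩
  · exact Or.inl h
  rcases line_or_eigen_sub ρ ε t hQ c hc htc (-s) hs' w hw0 hcw with h | ⟨u', hu'M, hu'0, hcu'⟩
  · exact Or.inl h
  rw [neg_neg] at hcu'
  -- plane case, with `M' = satSub (gSpan ρ w)`
  have hMstab : ∀ (g : G) (x : Λ), x ∈ satSub (gSpan ρ u) → ρ g x ∈ satSub (gSpan ρ u) :=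
    fun g x hx => map_mem_satSub (ρ g) (gSpan_stable ρ u g) hx
  have hM'stab : ∀ (g : G) (x : Λ), x ∈ satSub (gSpan ρ w) → ρ g x ∈ satSub (gSpan ρ w) :=
    fun g x hx => map_mem_satSub (ρ g) (gSpan_stable ρ w g) hx
  have hM'M : satSub (gSpan ρ w) ≤ satSub (gSpan ρ u) :=
    satSub_le (gSpan_le ρ w _ hwM hMstab) (isSatSub_satSub _)
  obtain ⟨r, u₁, hr, hru, hprimu⟩ := exists_primVec_of_ne_zero (R := R) hu0
  obtain ⟨r', w₁, hr', hrw, hprimw⟩ := exists_primVec_of_ne_zero (R := R) hw0
  have hleu : satSub (Submodule.span R {u}) ≤ Submodule.span R {u₁} := by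
    rw [← hprimu.satSub_span]
    apply satSub_mono
    rw [Submodule.span_singleton_le_iff_mem, hru]
    exact Submodule.smul_mem _ _ (Submodule.mem_span_singleton_self u₁)
  have hlew : satSub (Submodule.span R {w}) ≤ Submodule.span R {w₁} := by
    rw [← hprimw.satSub_span]
    apply satSub_mono
    rw [Submodule.span_singleton_le_iff_mem, hrw]
    exact Submodule.smul_mem _ _ (Submodule.mem_span_singleton_self w₁)
  have hplus : ∀ x ∈ satSub (gSpan ρ w), ρ c x = s • x → x ∈ Submodule.span R {u₁} :=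
    fun x hx hcx => hleu (eigen_mem_satSub_span hQ hc htc h2R s hs u hcu x (hM'M hx) hcx)
  have hminus : ∀ x ∈ satSub (gSpan ρ w), ρ c x = (-s) • x → x ∈ Submodule.span R {w₁} :=
    fun x hx hcx => hlew (eigen_mem_satSub_span hQ hc htc h2R (-s) hs' w hcw x hx hcx)
  -- `u₁`, `w₁` lie in `M'` and are eigenvectors
  obtain ⟨a, ha⟩ := Submodule.mem_span_singleton.mp (hplus u' hu'M hcu')
  have ha0 : a ≠ 0 := by
    rintro rfl
    rw [zero_smul] at ha
    exact hu'0 ha.symm
  have hu₁M' : u₁ ∈ satSub (gSpan ρ w) := by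
    apply isSatSub_satSub _ a u₁ ha0
    rw [ha]; exact hu'M
  have hu₁0 : u₁ ≠ 0 := by
    rintro rfl
    rw [smul_zero] at hru
    exact hu0 hru
  have hw₁0 : w₁ ≠ 0 := by
    rintro rfl
    rw [smul_zero] at hrw
    exact hw0 hrw
  have hcu₁ : ρ c u₁ = s • u₁ := by
    have h1 : r • (ρ c u₁ - s • u₁) = 0 := by
      rw [smul_sub, ← map_smul, ← hru, hcu, hru, smul_comm, sub_self]
    exact sub_eq_zero.mp ((smul_eq_zero.mp h1).resolve_left hr)
  have hw₁M' : w₁ ∈ satSub (gSpan ρ w) := by
    apply isSatSub_satSub _ r' w₁ hr'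
    rw [← hrw]
    exact le_satSub _ (mem_gSpan_self ρ w)
  have hcw₁ : ρ c w₁ = (-s) • w₁ := by
    have h1 : r' • (ρ c w₁ - (-s) • w₁) = 0 := by
      rw [smul_sub, ← map_smul, ← hrw, hcw, hrw, smul_comm, sub_self]
    exact sub_eq_zero.mp ((smul_eq_zero.mp h1).resolve_left hr')
  exact Or.inr <| planeConclusion_of_plane ρ ε t hQ c hc htc s hs (satSub (gSpan ρ w)) (isSatSub_satSub _)
    hM'stab u₁ w₁ hu₁M' hw₁M' hu₁0 hw₁0 hcu₁ hcw₁ hplus hminus

end Main

end Fermat.Agent.S32
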