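import Fermat.Agent.S32.Final

/-!
# S32 at one point: flatness of a representation over a discrete valuation ring
(owner: helper62)

`isFlatAt_point_of_s19`: let `O` be a complete discrete valuation ring of characteristic zero with
finite residue field of characteristic `p`, `χ : 𝕋 → O` a point of the Hecke algebra of level `N`
(`p ∤ N`), and `ρ₀ : GaloisRepAdic O` a representation with the Frobenius characteristic
polynomials of `χ`, four of whose matrices form a basis of `M₂(O)`.  Then `ρ₀` is flat at `p`.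

This is the proof of `isFlatAt_of_s19` with one point (no Hecke–Galois datum is needed);
`isFlatAt_point` is the same statement with all the inputs discharged except S19.
-/

set_option autoImplicit false
set_option linter.unusedSectionVars false
set_option linter.unusedVariables false
set_option linter.style.haveILetI false
set_option linter.overlappingInstances false

namespace Fermat.Agent.S32

open Polynomial Module IsLocalRing ModularCurve Fermat.Agent.DVRPoints Fermat.Agent.S30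
  Fermat.Agent.S30Tate Fermat.Agent.TraceRigidity
open scoped TensorProduct

local notation "GQ" => (AlgebraicClosure ℚ ≃ₐ[ℚ] AlgebraicClosure ℚ)

variable {p : ℕ} {N : ℕ} [NeZero N] {S : Finset ℕ}
  {O : Type} [CommRing O] [IsDomain O] [IsDiscreteValuationRing O]
  [IsAdicComplete (IsLocalRing.maximalIdeal O) O]

/-- **S32 at one point, from S19** and the interface propositions of cluster A at level `N`. -/
theorem isFlatAt_point_of_s19 (h19 : S19Statement)
    (hE : EigenclassPadic N) (hFin : F3.TorsionFinite N)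
    (hUnr : F3.TorsionUnramified N) (hFrob : F3.TorsionFrobQuadratic N)
    (hOpen : F3.TorsionOpenStab N) (hComm : F3.HeckeGaloisComm N)
    [Finite (IsLocalRing.ResidueField O)] [CharZero O]
    (hp : p.Prime) (hpO : (p : O) ∈ IsLocalRing.maximalIdeal O) (hpN : ¬ p ∣ N)
    (hpS : p ∈ S) (hNS : ∀ q : ℕ, q.Prime → q ∣ N → q ∈ S)
    (χ : CuspForm.heckeAlgebra N 2 (↑S : Set ℕ) →+* O) (ρ₀ : GaloisRepAdic O)
    (hfrob : ∀ ℓ : ℕ, ℓ.Prime → ℓ ∉ S →
      ∀ A : ValuationSubring (AlgebraicClosure ℚ), A.LiesOverPrime ℓ →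
        ∀ σ : GQ, A.IsFrobeniusAt σ ℓ →
          LinearMap.charpoly (ρ₀.ρ σ) =
            X ^ 2 - C (heckeEigenvalue χ ℓ) * X + C ((ℓ : O)))
    (b : Basis (Fin 2) O ρ₀.V) (g : Fin 2 × Fin 2 → GQ)
    (hg : IsUnit (coordMat (fun σ => LinearMap.toMatrix b b (ρ₀.ρ σ)) g).det) :
    ρ₀.IsFlatAt p := by
  classical
  haveI : Fact p.Prime := ⟨hp⟩
  refine ⟨inferInstance, fun I hI => ?_⟩
  obtain ⟨r, hr⟩ := exists_natCast_pow_mem_of_finite p hp hpO I hI
  obtain ⟨L, ev, hev_eq, hev_tors, hev_ker⟩ :=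
    exists_frobLattice_eval N hE hFin hUnr hFrob hOpen hComm p S hpS hNS O hpO χ
  obtain ⟨f, hfinj, hfeq, hfsat⟩ := exists_embedding_of_frobLattice F3.frobDensityLite hpS
    (heckeEigenvalue χ) L (Fermat.Agent.Cyclo.cycloCharData (p := p) (𝒪 := O) hpO)
    ρ₀ b g hg hfrob
  have hp0 : (p : O) ^ r ≠ 0 := pow_ne_zero r (Nat.cast_ne_zero.2 hp.ne_zero)
  set Φ : ρ₀.V →+ O ⊗[ℤ] JZero N := (ev r).toAddMonoidHom.comp f.toAddMonoidHom with hΦ
  have hΦeq : ∀ (σ : GQ) (v : ρ₀.V), Φ (ρ₀.ρ σ v) = galBC O (JZero N) σ (Φ v) := by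
    intro σ v
    show ev r (f (ρ₀.ρ σ v)) = galBC O (JZero N) σ (ev r (f v))
    rw [hfeq, hev_eq]
  have hΦtors : ∀ v : ρ₀.V, (p : O) ^ r • Φ v = 0 := fun v => hev_tors r _
  have hΦker : ∀ v : ρ₀.V, Φ v = 0 → ∃ w : ρ₀.V, v = (p : O) ^ r • w := by
    intro v hv
    have hv' : ev r (f v) = 0 := hv
    obtain ⟨y, hy⟩ := hev_ker r _ hv'
    obtain ⟨w, hw⟩ := hfsat ((p : O) ^ r) y hp0 ⟨v, by rw [hy]⟩
    refine ⟨w, ?_⟩
    apply hfinj
    rw [hy, map_smul, hw]
  have hfin : ∀ _ : Fin 1, Finite (O ⧸ Ideal.span {(p : O) ^ r}) := by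
    intro _
    have h1 := finite_quotient_span_natCast O (p ^ r) (pow_ne_zero r hp.ne_zero)
    rwa [Nat.cast_pow] at h1
  refine isFlat_of_tensor_family (p := p) r (J := JZero N) (h19 N p hpN r)
    (fun _ : Fin 1 => O) hfin (fun σ v => ρ₀.ρ σ v) (fun σ x => ρ₀.levelAction I σ x)
    (AddMonoidHom.pi fun _ : Fin 1 => Φ) (fun σ v _ => hΦeq σ v) (fun v _ => hΦtors v)
    (Submodule.mkQ (I • (⊤ : Submodule O ρ₀.V))).toAddMonoidHom
    (Submodule.mkQ_surjective _) (fun σ v => rfl) ?_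
  intro v hv
  obtain ⟨w, hw⟩ := hΦker v (congrFun hv 0)
  show Submodule.mkQ (I • (⊤ : Submodule O ρ₀.V)) v = 0
  rw [Submodule.mkQ_apply, Submodule.Quotient.mk_eq_zero, hw]
  exact Submodule.smul_mem_smul hr Submodule.mem_top

/-- **S32 at one point** (all inputs of cluster A discharged; only S19 is a hypothesis). -/
theorem isFlatAt_point (h19 : S19Statement)
    [Finite (IsLocalRing.ResidueField O)] [CharZero O]
    (hp : p.Prime) (hpO : (p : O) ∈ IsLocalRing.maximalIdeal O) (hpN : ¬ p ∣ N)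
    (hpS : p ∈ S) (hNS : ∀ q : ℕ, q.Prime → q ∣ N → q ∈ S)
    (χ : CuspForm.heckeAlgebra N 2 (↑S : Set ℕ) →+* O) (ρ₀ : GaloisRepAdic O)
    (hfrob : ∀ ℓ : ℕ, ℓ.Prime → ℓ ∉ S →
      ∀ A : ValuationSubring (AlgebraicClosure ℚ), A.LiesOverPrime ℓ →
        ∀ σ : GQ, A.IsFrobeniusAt σ ℓ →
          LinearMap.charpoly (ρ₀.ρ σ) =
            X ^ 2 - C (heckeEigenvalue χ ℓ) * X + C ((ℓ : O)))
    (b : Basis (Fin 2) O ρ₀.V) (g : Fin 2 × Fin 2 → GQ)
    (hg : IsUnit (coordMat (fun σ => LinearMap.toMatrix b b (ρ₀.ρ σ)) g).det) :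
    ρ₀.IsFlatAt p :=
  isFlatAt_point_of_s19 h19
    (Fermat.Agent.F3W.eigenclassPadic_of_kappaAllW (Fermat.Agent.F3I2.kappaAll N))
    (Fermat.Agent.F3TF.torsionFinite N)
    (Fermat.Agent.GaussInt.torsionUnramified_of_keyLemmaAt
      (Fermat.Agent.GaussInt.keyLemmaAt_all N))
    (Fermat.Agent.GaussIntFP.torsionFrobQuadratic_of_keyLemmaAt
      (Fermat.Agent.GaussInt.keyLemmaAt_all N) (Fermat.Agent.F3W.heckeInputs_all N))
    (Fermat.Agent.F3.torsionOpenStab N) (Fermat.Agent.F3G.heckeGaloisComm N)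
    hp hpO hpN hpS hNS χ ρ₀ hfrob b g hg

end Fermat.Agent.S32
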